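import Fermat.Agent.S27.M4.Riemann

/-!
# S27, block M4: main theorem
-/

set_option autoImplicit false
set_option linter.unusedSectionVars false

noncomputable section

namespace Fermat.Agent.S27.M4

open Polynomial AlgebraicCurve IsDedekindDomain

universe u

variable {s : Shape} {k : Type u} [Field k] [IsAlgClosed k]

theorem Main_xv_ne_zero (c : Table s k) (hc : Valid s c) : xv c hc ≠ 0 := by
  intro h
  have h1 := wt_xv (c := c) (hc := hc)
  rw [h, wt_zero] at h1
  exact absurd h1.symm s.m_pos.ne'

theorem Main_toF_aeval (c : Table s k) (hc : Valid s c) (p : k[X]) :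
    toF c hc (aeval (xv c hc) p) = aeval (toF c hc (xv c hc)) p :=
  (Polynomial.aeval_algebraMap_apply (Fc c hc) (xv c hc) p).symm

/-- The one point model attached to a valid table. -/
def model (c : Table s k) (hc : Valid s c) : OnePointModel k (Fc c hc) s where
  x := toF c hc (xv c hc)
  y := fun j => toF c hc (yv c hc j)
  inf := inf c hc
  c := c
  ord_x := by
    rw [inf_ord _ (Main_xv_ne_zero c hc), wt_xv]
  ord_y := by
    intro j
    rw [inf_ord _ (yv_ne_zero j), wt_yv]
  y_zero := by
    rw [yv_zero, map_one]
  regular_x := by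
    intro v hv
    exact ord_toF_nonneg v hv _
  regular_y := by
    intro v hv j
    exact ord_toF_nonneg v hv _
  span := by
    intro f hf
    obtain ⟨r, rfl⟩ := exists_eq_toF_of_regular f hf
    refine ⟨fun j => r j, ?_⟩
    conv_lhs => rw [eq_sum_aeval_mul_yv r]
    rw [map_sum]
    refine Finset.sum_congr rfl fun j _ => ?_
    rw [map_mul, Main_toF_aeval]
  mul_table := by
    intro i j
    rw [← map_mul, mul_table, map_sum]
    refine Finset.sum_congr rfl fun l _ => ?_
    rw [map_mul, Main_toF_aeval]

theorem stmtM4 : StmtM4.{u} := by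
  intro k _ _ s c hc
  exact ⟨Fc c hc, inferInstance, inferInstance, curveHyp, model c hc, rfl⟩

end Fermat.Agent.S27.M4
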