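import Mathlib
import Fermat.Agent.S24.PlaceDeg

set_option autoImplicit false
set_option linter.unusedSectionVars false

open AlgebraicCurve IsDedekindDomain

namespace Fermat.Agent.S27.M4

variable {k R : Type*} [Field k] [CommRing R] [IsDedekindDomain R] [Algebra k R]

/-- One step of the induction: multiplying by a prime raises the codimension by one. -/
theorem Codim_step
    (hres : ∀ P : Ideal R, P.IsMaximal → Function.Surjective (algebraMap k (R ⧸ P)))
    (P J : Ideal R) (hP : Prime P) (hJ : J ≠ ⊥) (hfin : Module.Finite k (R ⧸ J)) :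
    Module.Finite k (R ⧸ (P * J)) ∧
      Module.finrank k (R ⧸ (P * J)) = Module.finrank k (R ⧸ J) + 1 := by
  classical
  have hP0 : P ≠ ⊥ := hP.ne_zero
  have hPp : P.IsPrime := Ideal.isPrime_of_prime hP
  have hPm : P.IsMaximal := hPp.isMaximal hP0
  have hle : P * J ≤ J := Ideal.mul_le_right
  have hne : P * J ≠ J := by
    intro h
    have h1 : P * J = 1 * J := by rw [one_mul]; exact h
    have h2 : P = 1 := mul_right_cancel₀ hJ h1
    exact hPp.ne_top (by rw [h2, Ideal.one_eq_top])
  obtain ⟨a, haJ, haPJ⟩ := SetLike.exists_of_lt (lt_of_le_of_ne hle hne)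
  -- the ideal generated by `a` and `P * J` is `J`
  have hsup : Ideal.span {a} ⊔ P * J = J := by
    set L := Ideal.span {a} ⊔ P * J with hL
    have hLJ : L ≤ J := sup_le ((Ideal.span_singleton_le_iff_mem _).mpr haJ) hle
    have hPJL : P * J ≤ L := le_sup_right
    obtain ⟨L', hL'⟩ := Ideal.dvd_iff_le.mpr hLJ
    have hdvd : J * L' ∣ J * P := by
      rw [← hL', mul_comm J P]
      exact Ideal.dvd_iff_le.mpr hPJL
    have hdvd' : L' ∣ P := (mul_dvd_mul_iff_left hJ).mp hdvd
    rcases (hP.irreducible.dvd_iff).mp hdvd' with hu | hass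
    · rw [Ideal.isUnit_iff] at hu
      rw [hL', hu, Ideal.mul_top]
    · exfalso
      have hPL : P = L' := associated_iff_eq.mp hass
      apply haPJ
      rw [mul_comm, hPL, ← hL']
      exact le_sup_left (a := Ideal.span {a}) (Ideal.mem_span_singleton_self a)
  set π : (R ⧸ (P * J)) →ₗ[k] (R ⧸ J) := (Ideal.Quotient.factorₐ k hle).toLinearMap with hπ
  have hπmk : ∀ r : R, π (Ideal.Quotient.mk (P * J) r) = Ideal.Quotient.mk J r := fun r => rfl
  have hπsurj : Function.Surjective π := by
    intro y
    obtain ⟨r, rfl⟩ := Ideal.Quotient.mk_surjective y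
    exact ⟨Ideal.Quotient.mk _ r, rfl⟩
  set e : R ⧸ (P * J) := Ideal.Quotient.mk (P * J) a with he
  have he0 : e ≠ 0 := by
    rw [he, Ne, Ideal.Quotient.eq_zero_iff_mem]; exact haPJ
  have hker : LinearMap.ker π = Submodule.span k {e} := by
    apply le_antisymm
    · intro x hx
      obtain ⟨y, rfl⟩ := Ideal.Quotient.mk_surjective x
      rw [LinearMap.mem_ker, hπmk, Ideal.Quotient.eq_zero_iff_mem, ← hsup,
        Ideal.mem_span_singleton_sup] at hx
      obtain ⟨r, z, hz, hy⟩ := hx
      obtain ⟨c, hc⟩ := hres P hPm (Ideal.Quotient.mk P r)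
      rw [Submodule.mem_span_singleton]
      refine ⟨c, ?_⟩
      have hcr : algebraMap k R c - r ∈ P := by
        rw [← Ideal.Quotient.eq_zero_iff_mem, map_sub, sub_eq_zero, ← hc]
        rfl
      rw [he, Algebra.smul_def]
      change Ideal.Quotient.mk (P * J) (algebraMap k R c) * _ = _
      rw [← map_mul, Ideal.Quotient.eq, ← hy]
      have h1 : algebraMap k R c * a - (r * a + z) = (algebraMap k R c - r) * a - z := by ring
      rw [h1]
      exact Ideal.sub_mem _ (Ideal.mul_mem_mul hcr haJ) hz
    · rw [Submodule.span_singleton_le_iff_mem, LinearMap.mem_ker, he, hπmk,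
        Ideal.Quotient.eq_zero_iff_mem]
      exact haJ
  have hfin' : Module.Finite k (R ⧸ (P * J)) := by
    constructor
    apply Submodule.fg_of_fg_map_of_fg_inf_ker π
    · rw [Submodule.map_top, LinearMap.range_eq_top.mpr hπsurj]
      exact hfin.fg_top
    · rw [top_inf_eq, hker]
      exact Submodule.fg_span_singleton e
  refine ⟨hfin', ?_⟩
  have h := LinearMap.finrank_range_add_finrank_ker π
  rw [LinearMap.range_eq_top.mpr hπsurj, finrank_top, hker, finrank_span_singleton he0] at h
  exact h.symm

theorem finrank_quotient_eq_card_factors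
    (hres : ∀ P : Ideal R, P.IsMaximal → Function.Surjective (algebraMap k (R ⧸ P)))
    (I : Ideal R) (hI : I ≠ ⊥) :
    Module.Finite k (R ⧸ I) ∧
      Module.finrank k (R ⧸ I) = Multiset.card (UniqueFactorizationMonoid.normalizedFactors I) := by
  classical
  revert hI
  induction I using UniqueFactorizationMonoid.induction_on_prime with
  | h₁ => intro h; exact absurd rfl h
  | h₂ x hx =>
    intro _
    rw [Ideal.isUnit_iff] at hx
    subst hx
    have : Subsingleton (R ⧸ (⊤ : Ideal R)) := Ideal.Quotient.subsingleton_iff.mpr rfl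
    refine ⟨inferInstance, ?_⟩
    rw [Module.finrank_zero_of_subsingleton, ← Ideal.one_eq_top,
      UniqueFactorizationMonoid.normalizedFactors_one]
    rfl
  | h₃ J P hJ hP ih =>
    intro _
    obtain ⟨hfin, hrk⟩ := ih hJ
    obtain ⟨h1, h2⟩ := Codim_step hres P J hP hJ hfin
    refine ⟨h1, ?_⟩
    rw [h2, hrk, UniqueFactorizationMonoid.normalizedFactors_mul hP.ne_zero hJ,
      UniqueFactorizationMonoid.normalizedFactors_irreducible hP.irreducible, normalize_eq,
      Multiset.card_add, Multiset.card_singleton, add_comm]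

/-- The order at a prime of a nonzero element of `R` is the multiplicity of the prime in the
factorisation of the principal ideal. -/
theorem Codim_ord_eq_count {F : Type*} [Field F] [Algebra k F] [Algebra R F]
    [IsFractionRing R F] [IsScalarTower k R F] [DecidableEq (Ideal R)]
    (f : R) (hf : f ≠ 0) (w : HeightOneSpectrum R) :
    (Place.ofHeightOneSpectrum (K := k) (F := F) w).ord (algebraMap R F f)
      = (Multiset.count w.asIdeal
          (UniqueFactorizationMonoid.normalizedFactors (Ideal.span {f})) : ℤ) := by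
  rw [Fermat.Agent.S24.ofHeightOneSpectrum_ord, w.valuation_of_algebraMap]
  have hv0 : w.intValuation f ≠ 0 := w.intValuation_ne_zero f hf
  have hle : w.intValuation f ≤ 1 := w.intValuation_le_one f
  have hlog : (w.intValuation f).log ≤ 0 := by
    rw [← WithZero.log_one]
    exact (WithZero.log_le_log hv0 one_ne_zero).mpr hle
  obtain ⟨n, hn⟩ : ∃ n : ℕ, (w.intValuation f).log = -(n : ℤ) :=
    ⟨(-(w.intValuation f).log).toNat, by omega⟩
  have hval : w.intValuation f = WithZero.exp (-(n : ℤ)) := by
    rw [← hn, WithZero.exp_log hv0]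
  rw [hn, neg_neg]
  congr 1
  symm
  have := w.isPrime
  convert Ideal.count_normalizedFactors_eq (p := w.asIdeal) (x := Ideal.span {f}) (n := n) ?_ ?_
  · rw [Ideal.span_singleton_le_iff_mem, ← w.intValuation_le_pow_iff_mem, hval]
  · rw [Ideal.span_singleton_le_iff_mem, ← w.intValuation_le_pow_iff_mem, hval,
      WithZero.exp_le_exp]
    push_cast
    omega

theorem exists_finset_sum_ord_eq_finrank {F : Type*} [Field F] [Algebra k F] [Algebra R F]
    [IsFractionRing R F] [IsScalarTower k R F]
    (hres : ∀ P : Ideal R, P.IsMaximal → Function.Surjective (algebraMap k (R ⧸ P)))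
    (f : R) (hf : f ≠ 0) :
    ∃ Z : Finset (HeightOneSpectrum R), (∀ w, w ∈ Z ↔ f ∈ w.asIdeal) ∧
      ∑ w ∈ Z, (Place.ofHeightOneSpectrum (K := k) (F := F) w).ord (algebraMap R F f)
        = (Module.finrank k (R ⧸ Ideal.span {f}) : ℤ) := by
  classical
  have hI : Ideal.span {f} ≠ (⊥ : Ideal R) := by
    rw [Ne, Ideal.span_singleton_eq_bot]; exact hf
  have hfinite := Ideal.finite_factors (R := R) (I := Ideal.span {f}) hI
  have hmem : ∀ w : HeightOneSpectrum R, w ∈ hfinite.toFinset ↔ f ∈ w.asIdeal := by
    intro w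
    rw [Set.Finite.mem_toFinset, Set.mem_ofPred_eq, Ideal.dvd_iff_le,
      Ideal.span_singleton_le_iff_mem]
  refine ⟨hfinite.toFinset, hmem, ?_⟩
  rw [(finrank_quotient_eq_card_factors hres _ hI).2, ← Multiset.toFinset_sum_count_eq]
  push_cast
  rw [Finset.sum_congr rfl (fun w _ => Codim_ord_eq_count (k := k) (F := F) f hf w)]
  have himg : (UniqueFactorizationMonoid.normalizedFactors (Ideal.span {f})).toFinset
      = hfinite.toFinset.image HeightOneSpectrum.asIdeal := by
    ext Q
    rw [Multiset.mem_toFinset, Finset.mem_image]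
    constructor
    · intro hQ
      have hQp : Prime Q := UniqueFactorizationMonoid.prime_of_normalized_factor Q hQ
      have hQd : Q ∣ Ideal.span {f} := UniqueFactorizationMonoid.dvd_of_mem_normalizedFactors hQ
      refine ⟨⟨Q, Ideal.isPrime_of_prime hQp, hQp.ne_zero⟩, ?_, rfl⟩
      rw [hmem]
      exact (Ideal.span_singleton_le_iff_mem _).mp (Ideal.dvd_iff_le.mp hQd)
    · rintro ⟨w, hw, rfl⟩
      rw [hmem] at hw
      rw [UniqueFactorizationMonoid.mem_normalizedFactors_iff' hI]
      refine ⟨w.irreducible, normalize_eq _, ?_⟩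
      exact Ideal.dvd_iff_le.mpr ((Ideal.span_singleton_le_iff_mem _).mpr hw)
  rw [himg, Finset.sum_image]
  intro x _ y _ hxy
  exact HeightOneSpectrum.ext hxy

end Fermat.Agent.S27.M4
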