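import Mathlib

set_option autoImplicit false

namespace Fermat.Agent.S27.M4

theorem isDedekindDomain_of_cotangent {R : Type*} [CommRing R] [IsDomain R] [IsNoetherianRing R]
    [Ring.DimensionLEOne R]
    (h : ∀ P : Ideal R, P.IsMaximal → ∃ π ∈ P, P ≤ Ideal.span {π} ⊔ P ^ 2) :
    IsDedekindDomain R := by
  have hdvr : IsDedekindDomainDvr R :=
    { is_dvr_at_nonzero_prime := by
        intro P hP0 hPp
        have hPmax : P.IsMaximal := Ring.DimensionLEOne.maximalOfPrime hP0 hPp
        obtain ⟨π, hπ, hle⟩ := h P hPmax
        have hnf : ¬ IsField (Localization.AtPrime P) :=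
          IsLocalization.AtPrime.not_isField R hP0 _
        have hm : IsLocalRing.maximalIdeal (Localization.AtPrime P)
            = P.map (algebraMap R (Localization.AtPrime P)) :=
          (IsLocalization.AtPrime.map_eq_maximalIdeal P _).symm
        set m := IsLocalRing.maximalIdeal (Localization.AtPrime P) with hmdef
        set π' := algebraMap R (Localization.AtPrime P) π with hπ'
        have hle' : m ≤ Ideal.span {π'} ⊔ m • m := by
          have h1 := Ideal.map_mono (f := algebraMap R (Localization.AtPrime P)) hle
          rw [Ideal.map_sup, Ideal.map_pow, Ideal.map_span, Set.image_singleton, ← hm] at h1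
          rwa [smul_eq_mul, ← pow_two]
        have hjac : m ≤ Ideal.jacobson ⊥ := by
          rw [IsLocalRing.jacobson_eq_maximalIdeal ⊥ bot_ne_top]
        have hfg : (m : Submodule (Localization.AtPrime P) (Localization.AtPrime P)).FG :=
          IsNoetherian.noetherian m
        have hle2 : m ≤ Ideal.span {π'} :=
          Submodule.le_of_le_smul_of_le_jacobson_bot hfg hjac hle'
        have hπm : π' ∈ m := by
          rw [hm]
          exact Ideal.mem_map_of_mem _ hπ
        have heq : m = Ideal.span {π'} :=
          le_antisymm hle2 ((Ideal.span_singleton_le_iff_mem _).mpr hπm)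
        have hprin : m.IsPrincipal := ⟨⟨π', heq⟩⟩
        exact ((IsDiscreteValuationRing.TFAE (Localization.AtPrime P) hnf).out 0 4).mpr hprin }
  exact IsDedekindDomainDvr.isDedekindDomain R

end Fermat.Agent.S27.M4
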