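import Fermat.Agent.S27.M4.Places
import Fermat.Agent.S27.M4.Codim

/-!
# S27, block M4: principal divisors have degree `0`; `BaseHyp`
-/

set_option autoImplicit false
set_option linter.unusedSectionVars false

noncomputable section

namespace Fermat.Agent.S27.M4

open Polynomial AlgebraicCurve IsDedekindDomain

universe u

variable {s : Shape} {k : Type u} [Field k] [IsAlgClosed k] {c : Table s k} {hc : Valid s c}

theorem Degree_ord_eq_zero (w : HeightOneSpectrum (Rc c hc)) (r : Rc c hc)
    (hr : r ∉ w.asIdeal) : (fin c hc w).ord (toF c hc r) = 0 := by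
  have h1 := S24.mem_centre_iff (K := k) (F := Fc c hc) (fin c hc w)
    (S24.algebraMap_mem_ofHeightOneSpectrum w) r
  rw [S24.centre_ofHeightOneSpectrum] at h1
  have h2 := ord_toF_nonneg (fin c hc w) (fin_ne_inf w) r
  by_contra hne
  exact hr (h1.mpr (Or.inr (lt_of_le_of_ne h2 (Ne.symm hne))))

/-- the divisor of an element of `R_c`. -/
theorem exists_divisor_toF (r : Rc c hc) (hr : r ≠ 0) :
    ∃ D : Divisor k (Fc c hc), (∀ v, D v = v.ord (toF c hc r)) ∧ Divisor.degree D = 0 := by
  classical
  obtain ⟨Z, hZ, hsum⟩ := exists_finset_sum_ord_eq_finrank (k := k) (F := Fc c hc)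
    (fun P hP => residue_surjective P hP) r hr
  rw [finrank_quotient_span r hr] at hsum
  refine ⟨∑ w ∈ Z, Finsupp.single (fin c hc w) ((fin c hc w).ord (toF c hc r)) +
    Finsupp.single (inf c hc) (-(wt r : ℤ)), ?_, ?_⟩
  · intro v
    rcases place_cases v with rfl | ⟨w, rfl⟩
    · rw [Finsupp.add_apply, Finsupp.finsetSum_apply, Finsupp.single_eq_same,
        Finset.sum_eq_zero, zero_add]
      · exact (inf_ord r hr).symm
      · intro w _
        exact Finsupp.single_eq_of_ne (fin_ne_inf w).symm
    · rw [Finsupp.add_apply, Finsupp.finsetSum_apply,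
        Finsupp.single_eq_of_ne (fin_ne_inf w), add_zero]
      by_cases hw : w ∈ Z
      · rw [Finset.sum_eq_single_of_mem w hw, Finsupp.single_eq_same]
        intro w' _ hne
        exact Finsupp.single_eq_of_ne (fun h => hne (fin_injective h).symm)
      · rw [Finset.sum_eq_zero, Degree_ord_eq_zero w r (fun h => hw ((hZ w).mpr h))]
        intro w' hw'
        refine Finsupp.single_eq_of_ne (fun h => hw ?_)
        rw [fin_injective h]
        exact hw'
  · rw [map_add, map_sum, Divisor.degree_single, deg_eq_one]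
    simp only [Divisor.degree_single, deg_eq_one, Nat.cast_one, mul_one]
    rw [hsum]
    ring

theorem hasPrincipalDivisors : HasPrincipalDivisors k (Fc c hc) := by
  refine ⟨fun f hf => ?_⟩
  obtain ⟨a, b, hb, rfl⟩ := IsFractionRing.div_surjective (A := Rc c hc) f
  have hb0 : b ≠ 0 := nonZeroDivisors.ne_zero hb
  have hbF : toF c hc b ≠ 0 := by
    simpa using (IsFractionRing.injective (Rc c hc) (Fc c hc)).ne hb0
  have haF : toF c hc a ≠ 0 := by
    intro h
    apply hf
    rw [show algebraMap (Rc c hc) (Fc c hc) a = toF c hc a from rfl, h, zero_div]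
  have ha0 : a ≠ 0 := by
    rintro rfl
    exact haF (map_zero _)
  obtain ⟨Da, hDa, hda⟩ := exists_divisor_toF a ha0
  obtain ⟨Db, hDb, hdb⟩ := exists_divisor_toF b hb0
  refine ⟨Da - Db, fun v => ?_, ?_⟩
  · rw [Finsupp.sub_apply, hDa, hDb, div_eq_mul_inv, v.ord_mul haF (inv_ne_zero hbF), v.ord_inv]
    ring
  · rw [map_sub, hda, hdb, sub_zero]

theorem baseHyp : BaseHyp k (Fc c hc) :=
  ⟨hasPrincipalDivisors, residue_surjective_place⟩

end Fermat.Agent.S27.M4
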