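import Mathlib
import Fermat.Agent.S24.PlaceDeg

set_option autoImplicit false

open AlgebraicCurve

namespace Fermat.Agent.S27.M4

variable {k F : Type*} [Field k] [Field F] [Algebra k F]

omit [Field k] [Algebra k F] in
theorem PlaceOfVal_nontrivial (w : Valuation F (WithZero (Multiplicative ℤ)))
    (hπ : ∃ π : F, w π = WithZero.exp (-1 : ℤ)) :
    Nontrivial (MonoidWithZeroHom.valueGroup (MonoidWithZeroHom.ofClass w)) := by
  obtain ⟨π, hπ⟩ := hπ
  have hne : (WithZero.exp (-1 : ℤ) : WithZero (Multiplicative ℤ)) ≠ 0 := WithZero.exp_ne_zero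
  have hmem : Units.mk0 _ hne ∈ MonoidWithZeroHom.valueGroup (MonoidWithZeroHom.ofClass w) := by
    apply MonoidWithZeroHom.mem_valueGroup
    exact ⟨π, hπ⟩
  refine ⟨⟨⟨_, hmem⟩, 1, ?_⟩⟩
  intro h
  have h1 := congrArg (fun x => ((x : (WithZero (Multiplicative ℤ))ˣ) : WithZero (Multiplicative ℤ)))
    (congrArg Subtype.val h)
  simp only [Units.val_mk0, OneMemClass.coe_one, Units.val_one] at h1
  rw [← WithZero.exp_zero, WithZero.exp_inj] at h1
  omega

theorem exists_place_of_valuation (w : Valuation F (WithZero (Multiplicative ℤ)))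
    (hk : ∀ a : k, w (algebraMap k F a) ≤ 1) (hπ : ∃ π : F, w π = WithZero.exp (-1 : ℤ)) :
    ∃ v : Place k F, v.toValuationSubring = w.valuationSubring ∧
      ∀ f : F, v.ord f = - WithZero.log (w f) := by
  have hnt := PlaceOfVal_nontrivial w hπ
  obtain ⟨π, hπ⟩ := hπ
  have hπ0 : π ≠ 0 := by
    rintro rfl
    rw [map_zero] at hπ
    exact WithZero.exp_ne_zero hπ.symm
  let v : Place k F :=
    { toValuationSubring := w.valuationSubring
      algebraMap_mem' := fun a => (Valuation.mem_valuationSubring_iff w _).mpr (hk a)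
      ne_top' := by
        intro htop
        have hmem : π⁻¹ ∈ w.valuationSubring := by
          rw [htop]
          exact ValuationSubring.mem_top _
        rw [Valuation.mem_valuationSubring_iff, map_inv₀, hπ, ← WithZero.exp_neg,
          ← WithZero.exp_zero, WithZero.exp_le_exp] at hmem
        omega
      isPrincipalIdealRing' := Valuation.valuationSubring_isPrincipalIdealRing w }
  refine ⟨v, rfl, ?_⟩
  intro f
  rcases eq_or_ne f 0 with rfl | hf
  · simp
  obtain ⟨m, hm, hφ⟩ := Fermat.Agent.S24.exists_mul_ord_of_hom v (fun f => - WithZero.log (w f))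
    (by
      intro f g hf hg
      simp only [map_mul]
      rw [WithZero.log_mul ((Valuation.ne_zero_iff _).mpr hf) ((Valuation.ne_zero_iff _).mpr hg)]
      ring)
    (by
      intro f hf
      show f ∈ w.valuationSubring ↔ _
      rw [Valuation.mem_valuationSubring_iff]
      have h0 : w f ≠ 0 := (Valuation.ne_zero_iff _).mpr hf
      rw [← WithZero.log_le_log h0 one_ne_zero, WithZero.log_one]
      omega)
  have h1 := hφ π hπ0
  simp only [hπ, WithZero.log_exp, neg_neg] at h1
  have hm1 : m = 1 := by
    have : m ∣ 1 := ⟨_, h1⟩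
    exact Int.eq_one_of_dvd_one hm.le this
  have h2 := hφ f hf
  rw [hm1, one_mul] at h2
  exact h2.symm

theorem residue_surjective_of_forall_exists_const (v : Place k F)
    (h : ∀ a : F, a ∈ v.toValuationSubring →
      ∃ c : k, a = algebraMap k F c ∨ 0 < v.ord (a - algebraMap k F c)) :
    Function.Surjective (algebraMap k v.ResidueField) := by
  intro y
  obtain ⟨a, rfl⟩ := IsLocalRing.residue_surjective y
  obtain ⟨c, hc⟩ := h a a.2
  refine ⟨c, ?_⟩
  show IsLocalRing.residue _ (algebraMap k v.toValuationSubring c) = IsLocalRing.residue _ a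
  rw [← sub_eq_zero, ← map_sub, IsLocalRing.residue_eq_zero_iff,
    Fermat.Agent.S24.mem_maximalIdeal_iff]
  have hcoe : ((algebraMap k v.toValuationSubring c - a : v.toValuationSubring) : F)
      = -((a : F) - algebraMap k F c) := by
    push_cast
    rw [Place.coe_algebraMap]; ring
  rw [hcoe]
  rcases hc with hc | hc
  · left; rw [hc]; ring
  · right
    have hneg : ∀ z : F, v.ord (-z) = v.ord z := by
      intro z
      simp [Place.ord]
    rw [hneg]; exact hc

end Fermat.Agent.S27.M4
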