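import Fermat.Agent.S27.M4.WeightMul
import Fermat.Agent.S27.M4.PlaceOfVal

/-!
# S27, block M4: the function field `F_c = Frac R_c` and the place at infinity
-/

set_option autoImplicit false
set_option linter.unusedSectionVars false

noncomputable section

namespace Fermat.Agent.S27.M4

open Polynomial AlgebraicCurve

universe u

variable {s : Shape} {k : Type u} [Field k] [Infinite k]

/-- The function field. -/
abbrev Fc (c : Table s k) (hc : Valid s c) : Type u := FractionRing (Rc c hc)

variable {c : Table s k} {hc : Valid s c}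

/-- `f ↦ exp (ρ f)` as a valuation on `R_c`. -/
theorem exists_wtVal : ∃ w : Valuation (Rc c hc) (WithZero (Multiplicative ℤ)),
    ∀ f : Rc c hc, f ≠ 0 → w f = WithZero.exp (wt f : ℤ) := by
  classical
  let w : Valuation (Rc c hc) (WithZero (Multiplicative ℤ)) :=
    { toFun := fun f => if f = 0 then 0 else WithZero.exp (wt f : ℤ)
      map_zero' := by simp
      map_one' := by
        rw [if_neg one_ne_zero, Weight_wt_one]
        simp
      map_mul' := by
        intro f g
        by_cases hf : f = 0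
        · simp [hf]
        by_cases hg : g = 0
        · simp [hg]
        obtain ⟨h1, h2⟩ := wt_mul f g hf hg
        rw [if_neg h1, if_neg hf, if_neg hg, h2, Nat.cast_add, WithZero.exp_add]
      map_add_le_max' := by
        intro f g
        by_cases hf : f = 0
        · simp [hf]
        by_cases hg : g = 0
        · simp [hg]
        by_cases hfg : f + g = 0
        · simp [hfg]
        rw [if_neg hfg, if_neg hf, if_neg hg]
        rcases le_max_iff.1 (wt_add_le f g) with h | h
        · exact le_max_of_le_left (WithZero.exp_le_exp.2 (by exact_mod_cast h))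
        · exact le_max_of_le_right (WithZero.exp_le_exp.2 (by exact_mod_cast h)) }
  exact ⟨w, fun f hf => if_neg hf⟩

/-- its extension to `F_c`. -/
theorem exists_infVal : ∃ w : Valuation (Fc c hc) (WithZero (Multiplicative ℤ)),
    ∀ f : Rc c hc, f ≠ 0 → w (algebraMap (Rc c hc) (Fc c hc) f) = WithZero.exp (wt f : ℤ) := by
  obtain ⟨w, hw⟩ := exists_wtVal (c := c) (hc := hc)
  have hS : nonZeroDivisors (Rc c hc) ≤ w.supp.primeCompl := by
    intro f hf hmem
    have hf0 : f ≠ 0 := nonZeroDivisors.ne_zero hf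
    rw [SetLike.mem_coe, Valuation.mem_supp_iff, hw f hf0] at hmem
    exact WithZero.exp_ne_zero hmem
  refine ⟨w.extendToLocalization hS (Fc c hc), fun f hf => ?_⟩
  rw [Valuation.extendToLocalization_apply_map_apply, hw f hf]

theorem Infinity_toF_ne_zero {f : Rc c hc} (hf : f ≠ 0) :
    algebraMap (Rc c hc) (Fc c hc) f ≠ 0 := by
  rw [Ne, IsFractionRing.to_map_eq_zero_iff]
  exact hf

theorem Infinity_ord_div (v : Place k (Fc c hc))
    (hv : ∀ f : Rc c hc, f ≠ 0 → v.ord (algebraMap (Rc c hc) (Fc c hc) f) = -(wt f : ℤ))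
    (f g : Rc c hc) (hf : f ≠ 0) (hg : g ≠ 0) :
    v.ord (algebraMap (Rc c hc) (Fc c hc) f / algebraMap (Rc c hc) (Fc c hc) g)
      = (wt g : ℤ) - wt f := by
  rw [div_eq_mul_inv, Place.ord_mul _ (Infinity_toF_ne_zero hf)
    (inv_ne_zero (Infinity_toF_ne_zero hg)), Place.ord_inv, hv f hf, hv g hg]
  ring

theorem exists_inf : ∃ v : Place k (Fc c hc),
    (∀ f : Rc c hc, f ≠ 0 → v.ord (algebraMap (Rc c hc) (Fc c hc) f) = -(wt f : ℤ)) ∧
      Function.Surjective (algebraMap k v.ResidueField) := by
  obtain ⟨w, hw⟩ := exists_infVal (c := c) (hc := hc)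
  have hk : ∀ a : k, w (algebraMap k (Fc c hc) a) ≤ 1 := by
    intro a
    rcases eq_or_ne a 0 with rfl | ha
    · simp
    have ha' : algebraMap k (Rc c hc) a ≠ 0 := by
      rw [Ne, map_eq_zero_iff _ (algebraMap k (Rc c hc)).injective]
      exact ha
    rw [IsScalarTower.algebraMap_apply k (Rc c hc) (Fc c hc), hw _ ha', wt_algebraMap_k]
    simp
  have hπ : ∃ π : Fc c hc, w π = WithZero.exp (-1 : ℤ) := by
    obtain ⟨t1, j1, h1⟩ := exists_monomial_wt_eq (s := s) (∑ j, s.b j) le_rfl
    obtain ⟨t2, j2, h2⟩ := exists_monomial_wt_eq (s := s) (∑ j, s.b j + 1) (Nat.le_succ _)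
    have hne : ∀ (t : ℕ) (j : Fin s.m), ((X ^ t : k[X]) • yv c hc j) ≠ 0 := by
      intro t j h
      have h3 := congrFun h j
      rw [smul_apply, yv_apply, if_pos rfl, mul_one, zero_apply] at h3
      exact pow_ne_zero t X_ne_zero h3
    refine ⟨algebraMap (Rc c hc) (Fc c hc) ((X ^ t1 : k[X]) • yv c hc j1) /
      algebraMap (Rc c hc) (Fc c hc) ((X ^ t2 : k[X]) • yv c hc j2), ?_⟩
    rw [map_div₀, hw _ (hne t1 j1), hw _ (hne t2 j2), wt_monomial, wt_monomial, h1, h2,
      ← WithZero.exp_sub]
    congr 1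
    push_cast
    ring
  obtain ⟨v, hv1, hv2⟩ := exists_place_of_valuation (k := k) w hk hπ
  have hord : ∀ f : Rc c hc, f ≠ 0 →
      v.ord (algebraMap (Rc c hc) (Fc c hc) f) = -(wt f : ℤ) := by
    intro f hf
    rw [hv2, hw f hf, WithZero.log_exp]
  refine ⟨v, hord, ?_⟩
  apply residue_surjective_of_forall_exists_const
  intro a ha
  obtain ⟨f, g, hg, rfl⟩ := IsFractionRing.div_surjective (A := Rc c hc) a
  have hg0 : g ≠ 0 := nonZeroDivisors.ne_zero hg
  rcases eq_or_ne f 0 with rfl | hf0
  · exact ⟨0, Or.inl (by simp)⟩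
  have h1 := Fermat.Agent.S24.ord_nonneg_of_mem v ha
  rw [Infinity_ord_div v hord f g hf0 hg0] at h1
  rcases lt_or_eq_of_le (show wt f ≤ wt g by omega) with hlt | heq
  · refine ⟨0, Or.inr ?_⟩
    rw [map_zero, sub_zero, Infinity_ord_div v hord f g hf0 hg0]
    omega
  · obtain ⟨a, -, ha⟩ := exists_sub_smul_wt_lt f g hf0 hg0 heq
    refine ⟨a, ?_⟩
    have hgF := Infinity_toF_ne_zero hg0
    have key : algebraMap (Rc c hc) (Fc c hc) f / algebraMap (Rc c hc) (Fc c hc) g
        - algebraMap k (Fc c hc) a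
        = algebraMap (Rc c hc) (Fc c hc) (f - a • g) / algebraMap (Rc c hc) (Fc c hc) g := by
      rw [map_sub, Algebra.smul_def, map_mul, ← IsScalarTower.algebraMap_apply k (Rc c hc) (Fc c hc)]
      field_simp
    rcases ha with ha | ha
    · left
      rw [← sub_eq_zero, key, ha, sub_self, map_zero, zero_div]
    · by_cases hz : f - a • g = 0
      · left
        rw [← sub_eq_zero, key, hz, map_zero, zero_div]
      · right
        rw [key, Infinity_ord_div v hord _ g hz hg0]
        omega

/-- The place at infinity. -/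
def inf (c : Table s k) (hc : Valid s c) : Place k (Fc c hc) := (exists_inf (c := c) (hc := hc)).choose

theorem inf_ord (f : Rc c hc) (hf : f ≠ 0) :
    (inf c hc).ord (algebraMap (Rc c hc) (Fc c hc) f) = -(wt f : ℤ) :=
  (exists_inf (c := c) (hc := hc)).choose_spec.1 f hf

theorem inf_residue : Function.Surjective (algebraMap k (inf c hc).ResidueField) :=
  (exists_inf (c := c) (hc := hc)).choose_spec.2

theorem inf_ord_div (f g : Rc c hc) (hf : f ≠ 0) (hg : g ≠ 0) :
    (inf c hc).ord (algebraMap (Rc c hc) (Fc c hc) f / algebraMap (Rc c hc) (Fc c hc) g)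
      = (wt g : ℤ) - wt f :=
  Infinity_ord_div _ inf_ord f g hf hg

end Fermat.Agent.S27.M4
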