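import Fermat.Agent.S27.M4.WeightMul

/-!
# S27, block M4: `dim_k R_c / (f) = ρ(f)`

`dim_k R/(f) = natDegree (N f)` is Mathlib's `finrank_quotient_span_eq_natDegree_norm`.
`natDegree (N f) = ρ(f)`: both sides are additive in `f`.
* `≤`: the matrix of multiplication by `f` in the basis `y_j` has entries of degree
  `≤ (ρ f + B) / m`, `B = ∑ b_j`, so `natDegree (N f) ≤ ρ f + B`; apply this to `f ^ n`, divide by `n`.
* `≥`: there is `g ≠ 0` with `f g = h ∈ k[X]` (`f` is integral over `k[X]`), `N h = h ^ m`, so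
  `natDegree N f + natDegree N g = m natDegree h = ρ f + ρ g`.
-/

set_option autoImplicit false
set_option linter.unusedSectionVars false

noncomputable section

namespace Fermat.Agent.S27.M4

open Polynomial

universe u

variable {s : Shape} {k : Type u} [Field k] [Infinite k] {c : Table s k} {hc : Valid s c}

/-- general fact: determinant of a matrix with entries of degree `≤ D`. -/
theorem natDegree_det_le_of_forall_le {n : Type*} [Fintype n] [DecidableEq n]
    (M : Matrix n n k[X]) (D : ℕ) (h : ∀ i j, (M i j).natDegree ≤ D) :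
    M.det.natDegree ≤ Fintype.card n * D := by
  rw [Matrix.det_apply]
  refine natDegree_sum_le_of_forall_le _ _ fun σ _ => ?_
  calc (Equiv.Perm.sign σ • ∏ i, M (σ i) i).natDegree
      ≤ (∏ i, M (σ i) i).natDegree := by
        rcases Int.units_eq_one_or (Equiv.Perm.sign σ) with h1 | h1 <;> simp [h1]
    _ ≤ ∑ i, (M (σ i) i).natDegree := natDegree_prod_le _ _
    _ ≤ ∑ _i : n, D := Finset.sum_le_sum fun i _ => h _ _
    _ = Fintype.card n * D := by simp

theorem natDegree_norm_le_add (f : Rc c hc) :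
    (Algebra.norm k[X] f).natDegree ≤ wt f + ∑ j, s.b j + s.m := by
  rw [Algebra.norm_eq_matrix_det (basis c hc)]
  have hent : ∀ l j, (Algebra.leftMulMatrix (basis c hc) f l j).natDegree
      ≤ (wt f + ∑ j, s.b j) / s.m := by
    intro l j
    rw [Algebra.leftMulMatrix_eq_repr_mul, basis_repr, basis_apply]
    by_cases h0 : (f * yv c hc j) l = 0
    · rw [h0]; simp
    · have h1 := le_wt (f * yv c hc j) l h0
      have h2 := wt_mul_le f (yv c hc j)
      rw [wt_yv] at h2
      have h3 : s.b j ≤ ∑ j, s.b j :=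
        Finset.single_le_sum (f := fun j => s.b j) (fun _ _ => Nat.zero_le _) (Finset.mem_univ j)
      rw [Nat.le_div_iff_mul_le s.m_pos, mul_comm]
      omega
  have h := natDegree_det_le_of_forall_le _ _ hent
  rw [Fintype.card_fin] at h
  have h2 := Nat.mul_div_le (wt f + ∑ j, s.b j) s.m
  omega

theorem natDegree_norm_le (f : Rc c hc) (hf : f ≠ 0) : (Algebra.norm k[X] f).natDegree ≤ wt f := by
  by_contra hlt
  rw [not_le] at hlt
  set C := ∑ j, s.b j + s.m with hC
  have h := natDegree_norm_le_add (f ^ (C + 1))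
  rw [map_pow, natDegree_pow, wt_pow f hf] at h
  have h2 : (C + 1) * (wt f + 1) ≤ (C + 1) * (Algebra.norm k[X] f).natDegree :=
    Nat.mul_le_mul_left _ hlt
  have h3 : (C + 1) * (wt f + 1) = (C + 1) * wt f + (C + 1) := by ring
  omega

theorem normDeg_algebraMap_ne_zero {h : k[X]} (hh : h ≠ 0) :
    algebraMap k[X] (Rc c hc) h ≠ 0 := by
  intro h0
  have := congrFun h0 s.zero
  rw [algebraMap_apply, if_pos rfl, zero_apply] at this
  exact hh this

/-- a nonzero element divides a nonzero polynomial in `x`. -/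
theorem exists_mul_eq_algebraMap (f : Rc c hc) (hf : f ≠ 0) :
    ∃ (g : Rc c hc) (h : k[X]), g ≠ 0 ∧ h ≠ 0 ∧ f * g = algebraMap k[X] (Rc c hc) h := by
  have hint : IsIntegral k[X] f := Algebra.IsIntegral.isIntegral f
  have hne := Ideal.comap_ne_bot_of_integral_mem (I := Ideal.span {f}) hf
    (Ideal.mem_span_singleton_self f) hint
  obtain ⟨h, hmem, hh⟩ := Submodule.exists_mem_ne_zero_of_ne_bot hne
  rw [Ideal.mem_comap, Ideal.mem_span_singleton] at hmem
  obtain ⟨g, hg⟩ := hmem
  refine ⟨g, h, ?_, hh, hg.symm⟩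
  rintro rfl
  rw [mul_zero] at hg
  exact normDeg_algebraMap_ne_zero hh hg

theorem natDegree_norm (f : Rc c hc) (hf : f ≠ 0) : (Algebra.norm k[X] f).natDegree = wt f := by
  obtain ⟨g, h, hg, hh, hfg⟩ := exists_mul_eq_algebraMap f hf
  have h1 := congrArg (Algebra.norm k[X]) hfg
  rw [map_mul, Algebra.norm_algebraMap_of_basis (basis c hc), Fintype.card_fin] at h1
  have hNf : Algebra.norm k[X] f ≠ 0 := (Algebra.norm_ne_zero_iff_of_basis (basis c hc)).mpr hf
  have hNg : Algebra.norm k[X] g ≠ 0 := (Algebra.norm_ne_zero_iff_of_basis (basis c hc)).mpr hg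
  have h2 := congrArg natDegree h1
  rw [natDegree_mul hNf hNg, natDegree_pow] at h2
  have h3 := (wt_mul f g hf hg).2
  rw [hfg, wt_algebraMap] at h3
  have h4 := natDegree_norm_le f hf
  have h5 := natDegree_norm_le g hg
  omega

theorem finrank_quotient_span (f : Rc c hc) (hf : f ≠ 0) :
    Module.finrank k (Rc c hc ⧸ Ideal.span {f}) = wt f := by
  rw [finrank_quotient_span_eq_natDegree_norm (basis c hc) hf, natDegree_norm f hf]

end Fermat.Agent.S27.M4
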