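import Fermat.Agent.S27.M4.Points
import Fermat.Agent.S27.M4.Infinity
import Fermat.Agent.S27.M4.NormDeg

/-!
# S27, block M4: a place of `F_c` at which `x` has a pole is `inf`
-/

set_option autoImplicit false
set_option linter.unusedSectionVars false
set_option linter.style.haveILetI false

noncomputable section

namespace Fermat.Agent.S27.M4

open Polynomial AlgebraicCurve IsDedekindDomain

universe u

variable {s : Shape} {k : Type u} [Field k] [IsAlgClosed k] {c : Table s k} {hc : Valid s c}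

/-- coercion `R_c → F_c`. -/
abbrev toF (c : Table s k) (hc : Valid s c) : Rc c hc →+* Fc c hc := algebraMap (Rc c hc) (Fc c hc)

theorem placesInf_toF_C (a : k) :
    toF c hc (algebraMap k[X] (Rc c hc) (C a)) = algebraMap k (Fc c hc) a := by
  rw [← Polynomial.algebraMap_eq, ← IsScalarTower.algebraMap_apply k k[X] (Rc c hc),
    ← IsScalarTower.algebraMap_apply k (Rc c hc) (Fc c hc)]

theorem placesInf_toF_ne_zero {f : Rc c hc} (hf : f ≠ 0) : toF c hc f ≠ 0 := by
  intro h
  exact hf ((IsFractionRing.injective (Rc c hc) (Fc c hc)) (by rw [h, map_zero]))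

theorem placesInf_poly_mem (v : Place k (Fc c hc))
    (hx : toF c hc (xv c hc) ∈ v.toValuationSubring) (p : k[X]) :
    toF c hc (algebraMap k[X] (Rc c hc) p) ∈ v.toValuationSubring := by
  induction p using Polynomial.induction_on' with
  | add p q hp hq =>
    rw [map_add, map_add]
    exact add_mem hp hq
  | monomial n a =>
    rw [← C_mul_X_pow_eq_monomial, map_mul, map_mul, map_pow, map_pow, placesInf_toF_C]
    exact mul_mem (v.algebraMap_mem' a) (pow_mem hx n)

/-- If `x` is integral at `v` then so is all of `R_c`. -/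
theorem toF_mem_of_x_mem (v : Place k (Fc c hc)) (hx : toF c hc (xv c hc) ∈ v.toValuationSubring)
    (f : Rc c hc) : toF c hc f ∈ v.toValuationSubring := by
  letI : Algebra k[X] v.toValuationSubring :=
    ((algebraMap k[X] (Fc c hc)).codRestrict v.toValuationSubring.toSubring (fun p => by
      rw [IsScalarTower.algebraMap_apply k[X] (Rc c hc) (Fc c hc)]
      exact placesInf_poly_mem v hx p)).toAlgebra
  letI : IsScalarTower k[X] v.toValuationSubring (Fc c hc) :=
    IsScalarTower.of_algebraMap_eq fun f => rfl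
  have hb : IsIntegral k[X] (toF c hc f) := (Algebra.IsIntegral.isIntegral (R := k[X]) f).algebraMap
  have hx : IsIntegral v.toValuationSubring (toF c hc f) := hb.tower_top
  obtain ⟨y, hy⟩ := IsIntegrallyClosed.isIntegral_iff.mp hx
  rw [← hy]
  exact y.2

theorem placesInf_val_eq (v : Place k (Fc c hc)) {z : Fc c hc} (hz : z ≠ 0) :
    v.adicValuation z = WithZero.exp (-v.ord z) := by
  rw [Place.ord, neg_neg, WithZero.exp_log (v.adicValuation_ne_zero hz)]

theorem placesInf_val_const (v : Place k (Fc c hc)) {a : k} (ha : a ≠ 0) :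
    v.adicValuation (algebraMap k (Fc c hc) a) = 1 := by
  have h0 : algebraMap k (Fc c hc) a ≠ 0 := by simpa using ha
  rw [placesInf_val_eq v h0, S24.ord_algebraMap, neg_zero, WithZero.exp_zero]

theorem placesInf_val_const_le (v : Place k (Fc c hc)) (a : k) :
    v.adicValuation (algebraMap k (Fc c hc) a) ≤ 1 := by
  rcases eq_or_ne a 0 with rfl | ha
  · simp
  · exact (placesInf_val_const v ha).le

theorem placesInf_val_monomial (v : Place k (Fc c hc)) (hx0 : toF c hc (xv c hc) ≠ 0)
    {a : k} (ha : a ≠ 0) (n : ℕ) :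
    v.adicValuation (toF c hc (algebraMap k[X] (Rc c hc) (monomial n a)))
      = WithZero.exp ((n : ℤ) * (-v.ord (toF c hc (xv c hc)))) := by
  rw [← C_mul_X_pow_eq_monomial, map_mul, map_mul, map_pow, map_pow, placesInf_toF_C, map_mul,
    map_pow, placesInf_val_const v ha, one_mul]
  show v.adicValuation (toF c hc (xv c hc)) ^ n = _
  rw [placesInf_val_eq v hx0, ← WithZero.exp_nsmul, nsmul_eq_mul]

/-- `|p(x)| ≤ |x| ^ deg p`. -/
theorem placesInf_val_poly_le (v : Place k (Fc c hc)) (hx : v.ord (toF c hc (xv c hc)) < 0)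
    (p : k[X]) :
    v.adicValuation (toF c hc (algebraMap k[X] (Rc c hc) p))
      ≤ WithZero.exp ((p.natDegree : ℤ) * (-v.ord (toF c hc (xv c hc)))) := by
  have hx0 : toF c hc (xv c hc) ≠ 0 := by
    intro h
    rw [h, Place.ord_zero] at hx
    exact lt_irrefl _ hx
  conv_lhs => rw [p.as_sum_range]
  rw [map_sum, map_sum]
  refine Valuation.map_sum_le _ fun i hi => ?_
  rcases eq_or_ne (p.coeff i) 0 with h0 | h0
  · rw [h0, monomial_zero_right, map_zero, map_zero, map_zero]
    exact zero_le
  · rw [placesInf_val_monomial v hx0 h0, WithZero.exp_le_exp]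
    have hi' : (i : ℤ) ≤ p.natDegree := by
      have := Finset.mem_range.1 hi
      omega
    nlinarith

/-- `|p(x)| = |x| ^ deg p`. -/
theorem placesInf_val_poly (v : Place k (Fc c hc)) (hx : v.ord (toF c hc (xv c hc)) < 0)
    (p : k[X]) (hp : p ≠ 0) :
    v.adicValuation (toF c hc (algebraMap k[X] (Rc c hc) p))
      = WithZero.exp ((p.natDegree : ℤ) * (-v.ord (toF c hc (xv c hc)))) := by
  have hx0 : toF c hc (xv c hc) ≠ 0 := by
    intro h
    rw [h, Place.ord_zero] at hx
    exact lt_irrefl _ hx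
  have hl : p.leadingCoeff ≠ 0 := leadingCoeff_ne_zero.2 hp
  have h1 := placesInf_val_monomial v hx0 hl p.natDegree
  have h2 : v.adicValuation (toF c hc (algebraMap k[X] (Rc c hc) p.eraseLead))
      < v.adicValuation (toF c hc (algebraMap k[X] (Rc c hc)
          (monomial p.natDegree p.leadingCoeff))) := by
    rw [h1]
    rcases p.eraseLead_natDegree_lt_or_eraseLead_eq_zero with h | h
    · refine (placesInf_val_poly_le v hx _).trans_lt ?_
      rw [WithZero.exp_lt_exp]
      have : (p.eraseLead.natDegree : ℤ) < p.natDegree := by exact_mod_cast h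
      nlinarith
    · rw [h, map_zero, map_zero, map_zero]
      exact zero_lt_iff.2 WithZero.exp_ne_zero
  have h3 := Valuation.map_add_eq_of_lt_left _ h2
  rw [← map_add, ← map_add, add_comm, p.eraseLead_add_monomial_natDegree_leadingCoeff, h1] at h3
  exact h3

theorem placesInf_ord_poly (v : Place k (Fc c hc)) (hx : v.ord (toF c hc (xv c hc)) < 0)
    (p : k[X]) (hp : p ≠ 0) :
    v.ord (toF c hc (algebraMap k[X] (Rc c hc) p))
      = (p.natDegree : ℤ) * v.ord (toF c hc (xv c hc)) := by
  rw [Place.ord, placesInf_val_poly v hx p hp, WithZero.log_exp]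
  ring

/-- crude bound: `- ord_v f ≤ (ρ f / m) e + C`, in the form `m * (- ord_v f) ≤ ρ f * e + C`. -/
theorem exists_bound_of_x_not_mem (v : Place k (Fc c hc)) (hx : v.ord (toF c hc (xv c hc)) < 0) :
    ∃ C : ℤ, ∀ f : Rc c hc, f ≠ 0 →
      (s.m : ℤ) * (- v.ord (toF c hc f)) ≤ (wt f : ℤ) * (- v.ord (toF c hc (xv c hc))) + C := by
  have hm : (0 : ℤ) < s.m := by exact_mod_cast s.m_pos
  refine ⟨(s.m : ℤ) * ∑ j, |v.ord (toF c hc (yv c hc j))|, fun f hf => ?_⟩
  set e : ℤ := -v.ord (toF c hc (xv c hc)) with he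
  have he0 : 0 < e := by omega
  set C : ℤ := (s.m : ℤ) * ∑ j, |v.ord (toF c hc (yv c hc j))| with hC
  set B : ℤ := ((wt f : ℤ) * e + C) / s.m with hB
  have hf0 : toF c hc f ≠ 0 := placesInf_toF_ne_zero hf
  have key : v.adicValuation (toF c hc f) ≤ WithZero.exp B := by
    conv_lhs => rw [eq_sum_aeval_mul_yv f]
    rw [map_sum]
    refine Valuation.map_sum_le _ fun j _ => ?_
    rcases eq_or_ne (f j) 0 with h0 | h0
    · rw [h0, map_zero, zero_mul, map_zero, map_zero]
      exact zero_le
    · rw [aeval_xv, map_mul, map_mul, placesInf_val_poly v hx _ h0,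
        placesInf_val_eq v (placesInf_toF_ne_zero (yv_ne_zero j)), ← WithZero.exp_add,
        WithZero.exp_le_exp, hB, Int.le_ediv_iff_mul_le hm]
      have h1 : ((s.m * (f j).natDegree + s.b j : ℕ) : ℤ) ≤ wt f := by exact_mod_cast le_wt f j h0
      push_cast at h1
      have h2 : -v.ord (toF c hc (yv c hc j)) ≤ ∑ j, |v.ord (toF c hc (yv c hc j))| := by
        refine (neg_le_abs _).trans ?_
        exact Finset.single_le_sum (f := fun j => |v.ord (toF c hc (yv c hc j))|)
          (fun i _ => abs_nonneg _) (Finset.mem_univ j)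
      have h3 : (s.m : ℤ) * (f j).natDegree ≤ wt f := by
        have : (0 : ℤ) ≤ s.b j := Int.natCast_nonneg _
        omega
      have h4 : (s.m : ℤ) * (f j).natDegree * e ≤ wt f * e := mul_le_mul_of_nonneg_right h3 he0.le
      have h5 : (s.m : ℤ) * (-v.ord (toF c hc (yv c hc j))) ≤ C :=
        mul_le_mul_of_nonneg_left h2 hm.le
      nlinarith
  rw [placesInf_val_eq v hf0, WithZero.exp_le_exp] at key
  calc (s.m : ℤ) * (- v.ord (toF c hc f)) ≤ s.m * B := mul_le_mul_of_nonneg_left key hm.le
    _ ≤ (wt f : ℤ) * e + C := Int.mul_ediv_self_le hm.ne'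

/-- power trick. -/
theorem le_of_x_not_mem (v : Place k (Fc c hc)) (hx : v.ord (toF c hc (xv c hc)) < 0)
    (f : Rc c hc) (hf : f ≠ 0) :
    (s.m : ℤ) * (- v.ord (toF c hc f)) ≤ (wt f : ℤ) * (- v.ord (toF c hc (xv c hc))) := by
  obtain ⟨C, hC⟩ := exists_bound_of_x_not_mem v hx
  by_contra hcon
  push Not at hcon
  have h := hC (f ^ (C.natAbs + 1)) (pow_ne_zero _ hf)
  rw [wt_pow f hf, map_pow, ← zpow_natCast, Place.ord_zpow] at h
  push_cast at h
  have h1 : C ≤ |C| := le_abs_self C
  have h2 : 0 ≤ |C| := abs_nonneg C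
  nlinarith

/-- `m ord_v f = ρ(f) ord_v x` for a place with `ord_v x < 0`. -/
theorem ord_eq_of_x_not_mem (v : Place k (Fc c hc)) (hx : v.ord (toF c hc (xv c hc)) < 0)
    (f : Rc c hc) (hf : f ≠ 0) :
    (s.m : ℤ) * v.ord (toF c hc f) = (wt f : ℤ) * v.ord (toF c hc (xv c hc)) := by
  obtain ⟨g, h, hg, hh, hfg⟩ := exists_mul_eq_algebraMap f hf
  have h1 := le_of_x_not_mem v hx f hf
  have h2 := le_of_x_not_mem v hx g hg
  have h3 : v.ord (toF c hc f) + v.ord (toF c hc g)
      = (h.natDegree : ℤ) * v.ord (toF c hc (xv c hc)) := by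
    rw [← Place.ord_mul v (placesInf_toF_ne_zero hf) (placesInf_toF_ne_zero hg), ← map_mul, hfg,
      placesInf_ord_poly v hx h hh]
  have h4 : (wt f : ℤ) + wt g = s.m * h.natDegree := by
    have := (wt_mul f g hf hg).2
    rw [hfg, wt_algebraMap] at this
    exact_mod_cast this.symm
  nlinarith

theorem eq_inf_of_x_not_mem (v : Place k (Fc c hc))
    (hx : toF c hc (xv c hc) ∉ v.toValuationSubring) : v = inf c hc := by
  have hm : (0 : ℤ) < s.m := by exact_mod_cast s.m_pos
  have hx0 : toF c hc (xv c hc) ≠ 0 := by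
    intro h
    rw [h] at hx
    exact hx (zero_mem _)
  have hx' : v.ord (toF c hc (xv c hc)) < 0 := by
    by_contra h
    exact hx (S24.mem_of_ord_nonneg v hx0 (not_lt.1 h))
  apply Place.ext
  apply SetLike.ext
  intro z
  obtain ⟨a, b, hb, rfl⟩ := IsFractionRing.div_surjective (A := Rc c hc) z
  have hb0 : b ≠ 0 := nonZeroDivisors.ne_zero hb
  rcases eq_or_ne a 0 with rfl | ha0
  · rw [map_zero, zero_div]
    exact ⟨fun _ => zero_mem _, fun _ => zero_mem _⟩
  have hz : toF c hc a / toF c hc b ≠ 0 :=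
    div_ne_zero (placesInf_toF_ne_zero ha0) (placesInf_toF_ne_zero hb0)
  show toF c hc a / toF c hc b ∈ _ ↔ toF c hc a / toF c hc b ∈ _
  rw [S24.mem_iff_ord_nonneg v hz, S24.mem_iff_ord_nonneg _ hz, inf_ord_div a b ha0 hb0,
    div_eq_mul_inv, Place.ord_mul v (placesInf_toF_ne_zero ha0)
      (inv_ne_zero (placesInf_toF_ne_zero hb0)), Place.ord_inv]
  have h1 := ord_eq_of_x_not_mem v hx' a ha0
  have h2 := ord_eq_of_x_not_mem v hx' b hb0
  constructor
  · intro h
    by_contra hcon
    push Not at hcon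
    nlinarith
  · intro h
    by_contra hcon
    push Not at hcon
    nlinarith

end Fermat.Agent.S27.M4
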