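import Fermat.Agent.S27.M4.Smooth
import Fermat.Agent.S27.M4.PlacesInf

/-!
# S27, block M4: the places of `F_c` are `inf` and the maximal ideals of `R_c`
-/

set_option autoImplicit false
set_option linter.unusedSectionVars false

noncomputable section

namespace Fermat.Agent.S27.M4

open Polynomial AlgebraicCurve IsDedekindDomain

universe u

variable {s : Shape} {k : Type u} [Field k] [IsAlgClosed k] {c : Table s k} {hc : Valid s c}

/-- the finite places -/
abbrev fin (c : Table s k) (hc : Valid s c) (w : HeightOneSpectrum (Rc c hc)) : Place k (Fc c hc) :=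
  Place.ofHeightOneSpectrum (K := k) (F := Fc c hc) w

theorem place_cases (v : Place k (Fc c hc)) : v = inf c hc ∨ ∃ w, v = fin c hc w := by
  by_cases hx : toF c hc (xv c hc) ∈ v.toValuationSubring
  · right
    have hv : ∀ b : Rc c hc, algebraMap (Rc c hc) (Fc c hc) b ∈ v.toValuationSubring :=
      fun b => toF_mem_of_x_mem v hx b
    exact ⟨Fermat.Agent.S24.centre v hv, (Fermat.Agent.S24.ofHeightOneSpectrum_centre v hv).symm⟩
  · left
    exact eq_inf_of_x_not_mem v hx

theorem Places_toF_mem_fin (w : HeightOneSpectrum (Rc c hc)) (b : Rc c hc) :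
    toF c hc b ∈ (fin c hc w).toValuationSubring :=
  Fermat.Agent.S24.algebraMap_mem_ofHeightOneSpectrum (K := k) (F := Fc c hc) w b

theorem Places_xv_ne_zero : xv c hc ≠ 0 := by
  intro h
  have h1 : wt (xv c hc) = s.m := wt_xv
  rw [h, wt_zero] at h1
  have h2 : 0 < s.m := s.m_pos
  omega

theorem fin_ne_inf (w : HeightOneSpectrum (Rc c hc)) : fin c hc w ≠ inf c hc := by
  intro h
  have h1 := Fermat.Agent.S24.ord_nonneg_of_mem (fin c hc w) (Places_toF_mem_fin w (xv c hc))
  rw [h, inf_ord _ Places_xv_ne_zero, wt_xv] at h1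
  have h2 : 0 < s.m := s.m_pos
  omega

theorem fin_injective : Function.Injective (fin c hc) := by
  intro w w' h
  have h1 := Fermat.Agent.S24.centre_ofHeightOneSpectrum (K := k) (F := Fc c hc) w
  have h2 := Fermat.Agent.S24.centre_ofHeightOneSpectrum (K := k) (F := Fc c hc) w'
  rw [← h1, ← h2]
  have h' : Place.ofHeightOneSpectrum (K := k) (F := Fc c hc) w =
      Place.ofHeightOneSpectrum (K := k) (F := Fc c hc) w' := h
  congr 1

theorem fin_residue (w : HeightOneSpectrum (Rc c hc)) :
    Function.Surjective (algebraMap k (fin c hc w).ResidueField) := by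
  apply residue_surjective_of_forall_exists_const
  intro a ha
  exact Fermat.Agent.S24.exists_const_of_mem_of_dedekind (R := Rc c hc) (fin c hc w)
    (Places_toF_mem_fin w) a ha

theorem residue_surjective_place (v : Place k (Fc c hc)) :
    Function.Surjective (algebraMap k v.ResidueField) := by
  rcases place_cases v with rfl | ⟨w, rfl⟩
  · exact inf_residue
  · exact fin_residue w

theorem deg_eq_one (v : Place k (Fc c hc)) : v.deg = 1 := by
  have hbij : Function.Bijective (Algebra.linearMap k v.ResidueField) :=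
    ⟨(algebraMap k v.ResidueField).injective, residue_surjective_place v⟩
  rw [Place.deg, ← (LinearEquiv.ofBijective _ hbij).finrank_eq, Module.finrank_self]

/-- A function regular outside `inf` lies in `R_c`. -/
theorem exists_eq_toF_of_regular (f : Fc c hc) (h : ∀ v : Place k (Fc c hc), v ≠ inf c hc → 0 ≤ v.ord f) :
    ∃ r : Rc c hc, f = toF c hc r := by
  have hmem : f ∈ (algebraMap (Rc c hc) (Fc c hc)).range := by
    apply HeightOneSpectrum.mem_integers_of_valuation_le_one (K := Fc c hc) f
    intro w
    rcases eq_or_ne f 0 with rfl | hf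
    · simp
    have h1 := h (fin c hc w) (fin_ne_inf w)
    rw [Fermat.Agent.S24.ofHeightOneSpectrum_ord] at h1
    have h0 : w.valuation (Fc c hc) f ≠ 0 := (Valuation.ne_zero_iff _).mpr hf
    rw [← WithZero.log_le_log h0 one_ne_zero, WithZero.log_one]
    omega
  obtain ⟨r, hr⟩ := hmem
  exact ⟨r, hr.symm⟩

theorem ord_toF_nonneg (v : Place k (Fc c hc)) (hv : v ≠ inf c hc) (r : Rc c hc) :
    0 ≤ v.ord (toF c hc r) := by
  rcases place_cases v with rfl | ⟨w, rfl⟩
  · exact absurd rfl hv
  · exact Fermat.Agent.S24.ord_nonneg_of_mem _ (Places_toF_mem_fin w r)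

end Fermat.Agent.S27.M4
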