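import Fermat.Agent.S27.M4.WeightMul

/-!
# S27, block M4: maximal ideals of `R_c` are points of the table
-/

set_option autoImplicit false
set_option linter.unusedSectionVars false

noncomputable section

namespace Fermat.Agent.S27.M4

open Polynomial

universe u

variable {s : Shape} {k : Type u} [Field k] [IsAlgClosed k] {c : Table s k} {hc : Valid s c}

instance instFiniteTypeRc : Algebra.FiniteType k (Rc c hc) :=
  Algebra.FiniteType.trans (S := k[X]) inferInstance inferInstance

instance instIsNoetherianRingRc : IsNoetherianRing (Rc c hc) :=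
  Algebra.FiniteType.isNoetherianRing k (Rc c hc)

instance instIsIntegralRc : Algebra.IsIntegral k[X] (Rc c hc) :=
  Algebra.IsIntegral.of_finite k[X] (Rc c hc)

instance instDimensionLEOneRc : Ring.DimensionLEOne (Rc c hc) := by
  refine ⟨fun {P} hP0 hPp => ?_⟩
  obtain ⟨x, hxP, hx0⟩ := Submodule.exists_mem_ne_zero_of_ne_bot hP0
  have h1 : P.comap (algebraMap k[X] (Rc c hc)) ≠ ⊥ :=
    Ideal.comap_ne_bot_of_integral_mem hx0 hxP (Algebra.IsIntegral.isIntegral x)
  have h2 : (P.comap (algebraMap k[X] (Rc c hc))).IsPrime := Ideal.comap_isPrime _ P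
  have h3 : (P.comap (algebraMap k[X] (Rc c hc))).IsMaximal := h2.isMaximal h1
  exact Ideal.isMaximal_of_isIntegral_of_isMaximal_comap P h3

theorem algebraMap_poly_injective : Function.Injective (algebraMap k[X] (Rc c hc)) := by
  intro p q h
  have := congrFun h s.zero
  rwa [algebraMap_apply, algebraMap_apply, if_pos rfl, if_pos rfl] at this

theorem not_isField_Rc : ¬ IsField (Rc c hc) := by
  intro hF
  have hx0 : xv c hc ≠ 0 := by
    intro h
    have h1 : wt (xv c hc) = s.m := wt_xv
    rw [h, wt_zero] at h1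
    exact absurd h1.symm s.m_pos.ne'
  obtain ⟨g, hg⟩ := hF.mul_inv_cancel hx0
  have hg0 : g ≠ 0 := by
    intro h
    rw [h, mul_zero] at hg
    exact zero_ne_one hg
  have h1 := (wt_mul (xv c hc) g hx0 hg0).2
  have h2 : wt (1 : Rc c hc) = 0 := by
    have := wt_algebraMap_k (c := c) (hc := hc) (1 : k)
    rwa [map_one] at this
  rw [hg, h2, wt_xv] at h1
  have := s.m_pos
  omega

/-- Nullstellensatz. -/
theorem residue_surjective (P : Ideal (Rc c hc)) (hP : P.IsMaximal) :
    Function.Surjective (algebraMap k (Rc c hc ⧸ P)) := by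
  let _ : Field (Rc c hc ⧸ P) := Ideal.Quotient.field P
  have : Module.Finite k (Rc c hc ⧸ P) := finite_of_finite_type_of_isJacobsonRing k _
  exact (IsAlgClosed.algebraMap_bijective_of_isIntegral (k := k)).2

/-- The generators `x - ξ`, `y_j - η_j` of the maximal ideal of the point `(ξ, η)`:
`gen ξ η none = x - ξ`, `gen ξ η (some j) = y_j - η_j`. -/
def gen (c : Table s k) (hc : Valid s c) (ξ : k) (η : Fin s.m → k) : Option (Fin s.m) → Rc c hc
  | none => xv c hc - algebraMap k (Rc c hc) ξ
  | some j => yv c hc j - algebraMap k (Rc c hc) (η j)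

/-- `R = k + P`. -/
theorem exists_sub_mem (P : Ideal (Rc c hc)) (hP : P.IsMaximal) (f : Rc c hc) :
    ∃ a : k, f - algebraMap k (Rc c hc) a ∈ P := by
  obtain ⟨a, ha⟩ := residue_surjective P hP (Ideal.Quotient.mk P f)
  refine ⟨a, ?_⟩
  rw [IsScalarTower.algebraMap_apply k (Rc c hc) (Rc c hc ⧸ P), Ideal.Quotient.algebraMap_eq] at ha
  exact Ideal.Quotient.eq.mp ha.symm

/-- a constant lying in a proper ideal vanishes. -/
theorem Points_const_eq_zero (P : Ideal (Rc c hc)) (hP : P ≠ ⊤) (a : k)
    (ha : algebraMap k (Rc c hc) a ∈ P) : a = 0 := by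
  by_contra h0
  apply hP
  rw [Ideal.eq_top_iff_one]
  have : (1 : Rc c hc) = algebraMap k (Rc c hc) a⁻¹ * algebraMap k (Rc c hc) a := by
    rw [← map_mul, inv_mul_cancel₀ h0, map_one]
  rw [this]
  exact P.mul_mem_left _ ha

/-- modulo an ideal containing `x - ξ` and the `y_j - η_j` every element is a constant. -/
theorem Points_sub_const_mem (J : Ideal (Rc c hc)) (ξ : k) (η : Fin s.m → k)
    (hx : xv c hc - algebraMap k (Rc c hc) ξ ∈ J)
    (hy : ∀ j, yv c hc j - algebraMap k (Rc c hc) (η j) ∈ J) (p : Fin s.m → k[X]) :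
    (∑ j, aeval (xv c hc) (p j) * yv c hc j)
      - algebraMap k (Rc c hc) (∑ j, (p j).eval ξ * η j) ∈ J := by
  let φ : Rc c hc →ₐ[k] Rc c hc ⧸ J := Ideal.Quotient.mkₐ k J
  have hφ : ∀ a b : Rc c hc, a - b ∈ J → φ a = φ b := fun a b h => Ideal.Quotient.eq.mpr h
  have hφx : φ (xv c hc) = algebraMap k (Rc c hc ⧸ J) ξ := by
    rw [hφ _ _ hx, AlgHom.commutes]
  have hφy : ∀ j, φ (yv c hc j) = algebraMap k (Rc c hc ⧸ J) (η j) := fun j => by
    rw [hφ _ _ (hy j), AlgHom.commutes]
  have hφa : ∀ q : k[X], φ (aeval (xv c hc) q) = algebraMap k (Rc c hc ⧸ J) (q.eval ξ) := by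
    intro q
    rw [← Polynomial.aeval_algHom_apply, hφx, Polynomial.aeval_algebraMap_apply,
      Polynomial.coe_aeval_eq_eval]
  have key : φ (∑ j, aeval (xv c hc) (p j) * yv c hc j)
      = φ (algebraMap k (Rc c hc) (∑ j, (p j).eval ξ * η j)) := by
    rw [AlgHom.commutes, map_sum, map_sum]
    refine Finset.sum_congr rfl fun j _ => ?_
    rw [map_mul, hφa, hφy, map_mul]
  exact Ideal.Quotient.eq.mp key

/-- Every maximal ideal is the ideal of a point. -/
theorem exists_point (P : Ideal (Rc c hc)) (hP : P.IsMaximal) :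
    ∃ (ξ : k) (η : Fin s.m → k), c.IsPoint ξ η ∧ P = Ideal.span (Set.range (gen c hc ξ η)) := by
  obtain ⟨ξ, hξ⟩ := exists_sub_mem P hP (xv c hc)
  choose η hη using fun j => exists_sub_mem P hP (yv c hc j)
  have hconst := Points_const_eq_zero P hP.ne_top
  refine ⟨ξ, η, ⟨?_, ?_⟩, ?_⟩
  · have h := hη s.zero
    rw [yv_zero, ← map_one (algebraMap k (Rc c hc)), ← map_sub] at h
    have := hconst _ h
    exact (sub_eq_zero.mp this).symm
  · intro i j
    have h1 := Points_sub_const_mem P ξ η hξ hη (fun l => c.poly i j l)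
    rw [← mul_table] at h1
    have h2 : yv c hc i * yv c hc j - algebraMap k (Rc c hc) (η i * η j) ∈ P := by
      have : yv c hc i * yv c hc j - algebraMap k (Rc c hc) (η i * η j)
          = (yv c hc i - algebraMap k (Rc c hc) (η i)) * yv c hc j
            + algebraMap k (Rc c hc) (η i) * (yv c hc j - algebraMap k (Rc c hc) (η j)) := by
        rw [map_mul]; ring
      rw [this]
      exact P.add_mem (P.mul_mem_right _ (hη i)) (P.mul_mem_left _ (hη j))
    have h3 := P.sub_mem h1 h2
    have h4 : (yv c hc i * yv c hc j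
          - algebraMap k (Rc c hc) (∑ l, (c.poly i j l).eval ξ * η l))
        - (yv c hc i * yv c hc j - algebraMap k (Rc c hc) (η i * η j))
        = algebraMap k (Rc c hc) (η i * η j - ∑ l, (c.poly i j l).eval ξ * η l) := by
      rw [map_sub]; ring
    rw [h4] at h3
    have h5 := sub_eq_zero.mp (hconst _ h3)
    rw [h5]
    exact Finset.sum_congr rfl fun l _ => by rw [eval_poly]
  · apply le_antisymm
    · intro f hf
      set J := Ideal.span (Set.range (gen c hc ξ η)) with hJ
      have hJx : xv c hc - algebraMap k (Rc c hc) ξ ∈ J :=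
        Ideal.subset_span ⟨none, rfl⟩
      have hJy : ∀ j, yv c hc j - algebraMap k (Rc c hc) (η j) ∈ J := fun j =>
        Ideal.subset_span ⟨some j, rfl⟩
      have h1 := Points_sub_const_mem J ξ η hJx hJy (fun j => f j)
      have h1' := Points_sub_const_mem P ξ η hξ hη (fun j => f j)
      rw [← eq_sum_aeval_mul_yv] at h1 h1'
      have h2 : algebraMap k (Rc c hc) (∑ j, (f j).eval ξ * η j) ∈ P := by
        have := P.sub_mem hf h1'
        rwa [sub_sub_cancel] at this
      rw [hconst _ h2, map_zero, sub_zero] at h1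
      exact h1
    · rw [Ideal.span_le]
      rintro _ ⟨o, rfl⟩
      cases o with
      | none => exact hξ
      | some j => exact hη j

/-- `P = ∑ k gen + P ^ 2`. -/
theorem exists_sub_sum_mem_sq (P : Ideal (Rc c hc)) (hP : P.IsMaximal) (ξ : k) (η : Fin s.m → k)
    (h : P = Ideal.span (Set.range (gen c hc ξ η))) (f : Rc c hc) (hf : f ∈ P) :
    ∃ a : Option (Fin s.m) → k, f - ∑ o, a o • gen c hc ξ η o ∈ P ^ 2 := by
  have hf' := hf
  rw [h, Ideal.mem_span_range_iff_exists_fun] at hf'
  obtain ⟨r, hr⟩ := hf'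
  choose a ha using fun o => exists_sub_mem P hP (r o)
  refine ⟨a, ?_⟩
  have hgen : ∀ o, gen c hc ξ η o ∈ P := fun o => by
    rw [h]; exact Ideal.subset_span ⟨o, rfl⟩
  have : f - ∑ o, a o • gen c hc ξ η o
      = ∑ o, (r o - algebraMap k (Rc c hc) (a o)) * gen c hc ξ η o := by
    rw [← hr, ← Finset.sum_sub_distrib]
    refine Finset.sum_congr rfl fun o _ => ?_
    rw [Algebra.smul_def]; ring
  rw [this, sq]
  exact Ideal.sum_mem _ fun o _ => Ideal.mul_mem_mul (ha o) (hgen o)

end Fermat.Agent.S27.M4
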