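import Fermat.Agent.S27.M4.Degree
import Fermat.Agent.S27.RR.Main

/-!
# S27, block M4: `L(n inf)` and the Riemann bound; `CurveHyp`
-/

set_option autoImplicit false
set_option linter.unusedSectionVars false

noncomputable section

namespace Fermat.Agent.S27.M4

open Polynomial AlgebraicCurve IsDedekindDomain

universe u

variable {s : Shape} {k : Type u} [Field k] [IsAlgClosed k] {c : Table s k} {hc : Valid s c}

theorem Riemann_nsmul_single_inf (n : ℕ) :
    (n • Finsupp.single (inf c hc) (1 : ℤ)) (inf c hc) = n := by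
  rw [Finsupp.smul_apply, Finsupp.single_eq_same]
  simp

theorem Riemann_nsmul_single_of_ne (n : ℕ) (v : Place k (Fc c hc)) (hv : v ≠ inf c hc) :
    (n • Finsupp.single (inf c hc) (1 : ℤ)) v = 0 := by
  rw [Finsupp.smul_apply, Finsupp.single_eq_of_ne hv]
  simp

theorem Riemann_toF_injective : Function.Injective (toF c hc) :=
  IsFractionRing.injective (Rc c hc) (Fc c hc)

/-- `L(n inf) = {r ∈ R_c | ρ r ≤ n}`. -/
theorem mem_L_inf_iff (n : ℕ) (f : Fc c hc) :
    f ∈ riemannRochSpace (n • Finsupp.single (inf c hc) (1 : ℤ)) ↔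
      ∃ r : Rc c hc, wt r ≤ n ∧ f = toF c hc r := by
  rw [mem_riemannRochSpace_iff]
  constructor
  · intro h
    by_cases hf : f = 0
    · exact ⟨0, by simp, by simp [hf]⟩
    obtain ⟨r, rfl⟩ := exists_eq_toF_of_regular f (fun v hv => by
      rcases h v with h0 | h1
      · exact absurd h0 hf
      · rw [Riemann_nsmul_single_of_ne n v hv] at h1
        simpa using h1)
    refine ⟨r, ?_, rfl⟩
    have hr : r ≠ 0 := by
      rintro rfl
      exact hf (map_zero _)
    rcases h (inf c hc) with h0 | h1
    · exact absurd h0 hf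
    · rw [Riemann_nsmul_single_inf, inf_ord r hr] at h1
      omega
  · rintro ⟨r, hr, rfl⟩ v
    by_cases hr0 : r = 0
    · left
      rw [hr0, map_zero]
    right
    by_cases hv : v = inf c hc
    · rw [hv, Riemann_nsmul_single_inf, inf_ord r hr0]
      omega
    · rw [Riemann_nsmul_single_of_ne n v hv]
      simpa using ord_toF_nonneg v hv r

theorem finite_L_inf (n : ℕ) :
    Module.Finite k (riemannRochSpace (n • Finsupp.single (inf c hc) (1 : ℤ))) :=
  RR.finite_L baseHyp ⟨inf c hc⟩ _

theorem Riemann_monomial_apply_coeff (p : ℕ × Fin s.m) (j : Fin s.m) (t : ℕ) :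
    (((X ^ p.1 : k[X]) • yv c hc p.2) j).coeff t = if (t, j) = p then 1 else 0 := by
  obtain ⟨t', j'⟩ := p
  rw [smul_apply, yv_apply]
  by_cases hj : j = j'
  · rw [if_pos hj, mul_one, coeff_X_pow]
    by_cases ht : t = t'
    · simp [hj, ht]
    · simp [ht]
  · rw [if_neg hj, mul_zero, coeff_zero, if_neg]
    intro h
    exact hj (Prod.ext_iff.mp h).2

theorem Riemann_linearIndependent_Rc :
    LinearIndependent k (fun p : ℕ × Fin s.m => ((X ^ p.1 : k[X]) • yv c hc p.2 : Rc c hc)) := by
  classical
  rw [linearIndependent_iff']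
  intro S g hg p hp
  have h1 := congrArg (fun r : Rc c hc => (r p.2).coeff p.1) hg
  simp only [sum_apply, ksmul_apply, zero_apply, coeff_zero, finsetSum_coeff, coeff_C_mul,
    Riemann_monomial_apply_coeff] at h1
  rw [Finset.sum_eq_single p] at h1
  · simpa using h1
  · intro q _ hq
    rw [if_neg (fun h => hq h.symm), mul_zero]
  · intro h
    exact absurd hp h

/-- `toF` as a `k`-linear map. -/
def Riemann_toFLin (c : Table s k) (hc : Valid s c) : Rc c hc →ₗ[k] Fc c hc :=
  (IsScalarTower.toAlgHom k (Rc c hc) (Fc c hc)).toLinearMap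

theorem Riemann_toFLin_apply (r : Rc c hc) : Riemann_toFLin c hc r = toF c hc r := rfl

/-- the monomials `x^t y_j` are linearly independent over `k`. -/
theorem linearIndependent_monomials :
    LinearIndependent k (fun p : ℕ × Fin s.m => toF c hc ((X ^ p.1 : k[X]) • yv c hc p.2)) := by
  have h := (Riemann_linearIndependent_Rc (c := c) (hc := hc)).map' (Riemann_toFLin c hc)
    (LinearMap.ker_eq_bot.mpr Riemann_toF_injective)
  exact h

theorem le_ell_inf (n : ℕ) :
    (n : ℤ) - ∑ j, (s.b j : ℤ) ≤ (ell (n • Finsupp.single (inf c hc) (1 : ℤ)) : ℤ) := by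
  set B : ℕ := ∑ j, s.b j with hB
  have hBc : (∑ j, (s.b j : ℤ)) = (B : ℤ) := by
    rw [hB]; push_cast; rfl
  rw [hBc]
  by_cases hn : n < B
  · have : (0 : ℤ) ≤ (ell (n • Finsupp.single (inf c hc) (1 : ℤ)) : ℤ) := Int.natCast_nonneg _
    omega
  have hex : ∀ i : Fin (n - B + 1), ∃ p : ℕ × Fin s.m, s.m * p.1 + s.b p.2 = B + i := by
    intro i
    obtain ⟨t, j, h⟩ := exists_monomial_wt_eq (s := s) (B + i) (by omega)
    exact ⟨(t, j), h⟩
  choose p hp using hex
  have hpinj : Function.Injective p := by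
    intro i i' h
    have h1 := hp i
    have h2 := hp i'
    rw [h] at h1
    exact Fin.ext (by omega)
  have hmem : ∀ i, toF c hc ((X ^ (p i).1 : k[X]) • yv c hc (p i).2) ∈
      riemannRochSpace (n • Finsupp.single (inf c hc) (1 : ℤ)) := by
    intro i
    rw [mem_L_inf_iff]
    refine ⟨_, ?_, rfl⟩
    rw [wt_monomial, hp i]
    have := i.2
    omega
  have hli : LinearIndependent k (fun i : Fin (n - B + 1) =>
      (⟨_, hmem i⟩ : riemannRochSpace (n • Finsupp.single (inf c hc) (1 : ℤ)))) := by
    apply LinearIndependent.of_comp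
      (riemannRochSpace (n • Finsupp.single (inf c hc) (1 : ℤ))).subtype
    exact (linearIndependent_monomials (c := c) (hc := hc)).comp p hpinj
  have := finite_L_inf (c := c) (hc := hc) n
  have hcard := hli.fintype_card_le_finrank
  rw [Fintype.card_fin] at hcard
  have : n - B + 1 ≤ ell (n • Finsupp.single (inf c hc) (1 : ℤ)) := hcard
  omega

theorem curveHyp : CurveHyp k (Fc c hc) where
  toBaseHyp := baseHyp
  riemann := by
    refine ⟨Finsupp.single (inf c hc) (1 : ℤ), ∑ j, (s.b j : ℤ), ?_, fun n => ?_⟩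
    · rw [Divisor.degree_single, deg_eq_one]
      norm_num
    · rw [Divisor.degree_single, deg_eq_one]
      have := le_ell_inf (c := c) (hc := hc) n
      push_cast
      linarith

end Fermat.Agent.S27.M4
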