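import Fermat.Agent.S27.Model

/-!
# S27, block M4: the ring `R_c = ⊕_j k[X] y_j` attached to a valid table

`Rc c hc` is the type `Fin s.m → k[X]` (coordinate vectors) with the multiplication given by the
table: `(f * g) l = ∑ i, ∑ j, f i * g j * c.poly i j l`.
-/

set_option autoImplicit false
set_option linter.unusedSectionVars false

noncomputable section

namespace Fermat.Agent.S27.M4

open Polynomial

universe u

variable {s : Shape} {k : Type u} [Field k]

/-! ## polynomial identities -/

theorem eval_poly (c : Table s k) (ξ : k) (i j l : Fin s.m) :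
    (c.poly i j l).eval ξ = c.ev ξ i j l := by
  simp [Table.poly, Table.ev, eval_finsetSum]

theorem coeff_poly (c : Table s k) (i j l : Fin s.m) (t : Fin s.T) :
    (c.poly i j l).coeff (t : ℕ) = c i j l t := by
  unfold Table.poly
  rw [finsetSum_coeff, Finset.sum_eq_single t]
  · simp
  · intro t' _ ht'
    rw [coeff_C_mul, coeff_X_pow, if_neg, mul_zero]
    intro h
    exact ht' (Fin.ext h.symm)
  · intro h
    exact absurd (Finset.mem_univ t) h

theorem coeff_poly_of_le (c : Table s k) (i j l : Fin s.m) (n : ℕ) (hn : s.T ≤ n) :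
    (c.poly i j l).coeff n = 0 := by
  unfold Table.poly
  rw [finsetSum_coeff]
  apply Finset.sum_eq_zero
  intro t _
  rw [coeff_C_mul, coeff_X_pow, if_neg, mul_zero]
  have := t.2
  omega

theorem poly_symm {c : Table s k} (hc : Valid s c) (i j l : Fin s.m) :
    c.poly i j l = c.poly j i l := by
  unfold Table.poly
  rw [hc.symm i j]

theorem poly_unit {c : Table s k} (hc : Valid s c) (j l : Fin s.m) :
    c.poly s.zero j l = if l = j then 1 else 0 := by
  ext n
  by_cases hn : n < s.T
  · have := coeff_poly c s.zero j l ⟨n, hn⟩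
    simp only at this
    rw [this, hc.unit]
    by_cases hl : l = j
    · by_cases h0 : n = 0
      · simp [hl, h0]
      · simp [hl, h0, coeff_one]
    · simp [hl]
  · rw [coeff_poly_of_le c _ _ _ n (not_lt.1 hn)]
    have hT : 0 < s.T := by unfold Shape.T; omega
    have h0 : n ≠ 0 := by omega
    split_ifs
    · rw [coeff_one, if_neg]
      exact fun h => h0 h
    · simp

theorem poly_assoc [Infinite k] {c : Table s k} (hc : Valid s c) (i j r u : Fin s.m) :
    ∑ l, c.poly i j l * c.poly l r u = ∑ l, c.poly j r l * c.poly i l u := by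
  apply Polynomial.funext
  intro ξ
  simp only [eval_finsetSum, eval_mul, eval_poly]
  exact hc.assoc ξ i j r u

/-! ## the ring -/

/-- The carrier of the algebra with structure constants `c`: coordinate vectors. -/
def Rc (c : Table s k) (_hc : Valid s c) : Type u := Fin s.m → k[X]

variable {c : Table s k} {hc : Valid s c}

instance instAddCommGroupRc : AddCommGroup (Rc c hc) :=
  inferInstanceAs (AddCommGroup (Fin s.m → k[X]))

instance instModuleRc : Module k[X] (Rc c hc) :=
  inferInstanceAs (Module k[X] (Fin s.m → k[X]))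

instance instMulRc : Mul (Rc c hc) := ⟨fun f g l => ∑ i, ∑ j, f i * g j * c.poly i j l⟩

instance instOneRc : One (Rc c hc) := ⟨fun l => if l = s.zero then 1 else 0⟩

@[ext] theorem Rc.ext {f g : Rc c hc} (h : ∀ l, f l = g l) : f = g := funext h

theorem mul_apply (f g : Rc c hc) (l : Fin s.m) :
    (f * g) l = ∑ i, ∑ j, f i * g j * c.poly i j l := rfl

theorem one_apply (l : Fin s.m) : (1 : Rc c hc) l = if l = s.zero then 1 else 0 := rfl

@[simp] theorem add_apply (f g : Rc c hc) (l : Fin s.m) : (f + g) l = f l + g l := rfl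

@[simp] theorem sub_apply (f g : Rc c hc) (l : Fin s.m) : (f - g) l = f l - g l := rfl

@[simp] theorem neg_apply (f : Rc c hc) (l : Fin s.m) : (-f) l = -f l := rfl

@[simp] theorem zero_apply (l : Fin s.m) : (0 : Rc c hc) l = 0 := rfl

@[simp] theorem smul_apply (p : k[X]) (f : Rc c hc) (l : Fin s.m) : (p • f) l = p * f l := rfl

theorem sum_apply {ι : Type*} (t : Finset ι) (f : ι → Rc c hc) (l : Fin s.m) :
    (∑ i ∈ t, f i) l = ∑ i ∈ t, f i l :=
  Finset.sum_apply (M := fun _ : Fin s.m => k[X]) l t f

theorem Rc.mul_comm' (f g : Rc c hc) : f * g = g * f := by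
  ext l : 1
  rw [mul_apply, mul_apply, Finset.sum_comm]
  refine Finset.sum_congr rfl fun i _ => Finset.sum_congr rfl fun j _ => ?_
  rw [poly_symm hc j i l]
  ring

theorem Rc.one_mul' (f : Rc c hc) : 1 * f = f := by
  ext l : 1
  rw [mul_apply, Finset.sum_eq_single s.zero]
  · rw [Finset.sum_eq_single l]
    · rw [one_apply, if_pos rfl, poly_unit hc, if_pos rfl]
      ring
    · intro j _ hj
      rw [poly_unit hc, if_neg (Ne.symm hj), mul_zero]
    · intro h
      exact absurd (Finset.mem_univ l) h
  · intro i _ hi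
    apply Finset.sum_eq_zero
    intro j _
    rw [one_apply, if_neg hi]
    ring
  · intro h
    exact absurd (Finset.mem_univ _) h

theorem Rc.mul_assoc' [Infinite k] (f g h : Rc c hc) : f * g * h = f * (g * h) := by
  ext u : 1
  have L : (f * g * h) u
      = ∑ i, ∑ j, ∑ r, f i * g j * h r * ∑ l, c.poly i j l * c.poly l r u := by
    simp only [mul_apply, Finset.sum_mul, Finset.mul_sum]
    calc ∑ l, ∑ r, ∑ i, ∑ j, f i * g j * c.poly i j l * h r * c.poly l r u
        = ∑ l, ∑ i, ∑ r, ∑ j, f i * g j * c.poly i j l * h r * c.poly l r u :=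
          Finset.sum_congr rfl fun l _ => Finset.sum_comm
      _ = ∑ i, ∑ l, ∑ r, ∑ j, f i * g j * c.poly i j l * h r * c.poly l r u := Finset.sum_comm
      _ = ∑ i, ∑ l, ∑ j, ∑ r, f i * g j * c.poly i j l * h r * c.poly l r u :=
          Finset.sum_congr rfl fun i _ => Finset.sum_congr rfl fun l _ => Finset.sum_comm
      _ = ∑ i, ∑ j, ∑ l, ∑ r, f i * g j * c.poly i j l * h r * c.poly l r u :=
          Finset.sum_congr rfl fun i _ => Finset.sum_comm
      _ = ∑ i, ∑ j, ∑ r, ∑ l, f i * g j * c.poly i j l * h r * c.poly l r u :=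
          Finset.sum_congr rfl fun i _ => Finset.sum_congr rfl fun j _ => Finset.sum_comm
      _ = ∑ i, ∑ j, ∑ r, ∑ l, f i * g j * h r * (c.poly i j l * c.poly l r u) := by
          refine Finset.sum_congr rfl fun i _ => Finset.sum_congr rfl fun j _ =>
            Finset.sum_congr rfl fun r _ => Finset.sum_congr rfl fun l _ => ?_
          ring
  have R : (f * (g * h)) u
      = ∑ i, ∑ j, ∑ r, f i * g j * h r * ∑ l, c.poly j r l * c.poly i l u := by
    simp only [mul_apply, Finset.sum_mul, Finset.mul_sum]
    calc ∑ i, ∑ l, ∑ j, ∑ r, f i * (g j * h r * c.poly j r l) * c.poly i l u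
        = ∑ i, ∑ j, ∑ l, ∑ r, f i * (g j * h r * c.poly j r l) * c.poly i l u :=
          Finset.sum_congr rfl fun i _ => Finset.sum_comm
      _ = ∑ i, ∑ j, ∑ r, ∑ l, f i * (g j * h r * c.poly j r l) * c.poly i l u :=
          Finset.sum_congr rfl fun i _ => Finset.sum_congr rfl fun j _ => Finset.sum_comm
      _ = ∑ i, ∑ j, ∑ r, ∑ l, f i * g j * h r * (c.poly j r l * c.poly i l u) := by
          refine Finset.sum_congr rfl fun i _ => Finset.sum_congr rfl fun j _ =>
            Finset.sum_congr rfl fun r _ => Finset.sum_congr rfl fun l _ => ?_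
          ring
  rw [L, R]
  refine Finset.sum_congr rfl fun i _ => Finset.sum_congr rfl fun j _ =>
    Finset.sum_congr rfl fun r _ => ?_
  rw [poly_assoc hc]

theorem Rc.left_distrib' (f g h : Rc c hc) : f * (g + h) = f * g + f * h := by
  ext l : 1
  simp only [mul_apply, add_apply, mul_add, add_mul, Finset.sum_add_distrib]

variable [Infinite k]

instance instCommRingRc : CommRing (Rc c hc) :=
  { instAddCommGroupRc with
    mul := (· * ·)
    one := 1
    left_distrib := Rc.left_distrib'
    right_distrib := fun f g h => by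
      rw [Rc.mul_comm', Rc.left_distrib', Rc.mul_comm' h f, Rc.mul_comm' h g]
    zero_mul := fun f => by
      ext l : 1
      simp only [mul_apply, zero_apply, zero_mul, Finset.sum_const_zero]
    mul_zero := fun f => by
      ext l : 1
      simp only [mul_apply, zero_apply, mul_zero, zero_mul, Finset.sum_const_zero]
    mul_assoc := Rc.mul_assoc'
    one_mul := Rc.one_mul'
    mul_one := fun f => by rw [Rc.mul_comm', Rc.one_mul']
    mul_comm := Rc.mul_comm' }

instance instAlgebraPolyRc : Algebra k[X] (Rc c hc) :=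
  Algebra.ofModule
    (fun p f g => by
      ext l : 1
      simp only [mul_apply, smul_apply, Finset.mul_sum]
      refine Finset.sum_congr rfl fun i _ => Finset.sum_congr rfl fun j _ => ?_
      ring)
    (fun p f g => by
      ext l : 1
      simp only [mul_apply, smul_apply, Finset.mul_sum]
      refine Finset.sum_congr rfl fun i _ => Finset.sum_congr rfl fun j _ => ?_
      ring)

theorem algebraMap_apply (p : k[X]) (l : Fin s.m) :
    algebraMap k[X] (Rc c hc) p l = if l = s.zero then p else 0 := by
  rw [Algebra.algebraMap_eq_smul_one, smul_apply, one_apply]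
  split_ifs <;> simp

instance instAlgebraRc : Algebra k (Rc c hc) :=
  Algebra.compHom (Rc c hc) (Polynomial.C : k →+* k[X])

theorem smul_def' (a : k) (f : Rc c hc) : a • f = (C a : k[X]) • f := rfl

instance instIsScalarTowerRc : IsScalarTower k k[X] (Rc c hc) :=
  ⟨fun a p f => by rw [smul_def', Polynomial.smul_eq_C_mul, mul_smul]⟩

@[simp] theorem ksmul_apply (a : k) (f : Rc c hc) (l : Fin s.m) : (a • f) l = C a * f l := rfl

/-- The basis `y_j`. -/
def basis (c : Table s k) (hc : Valid s c) : Module.Basis (Fin s.m) k[X] (Rc c hc) :=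
  Pi.basisFun k[X] (Fin s.m)

/-- `y_j`. -/
def yv (c : Table s k) (hc : Valid s c) (j : Fin s.m) : Rc c hc := fun l => if l = j then 1 else 0

/-- `x`. -/
def xv (c : Table s k) (hc : Valid s c) : Rc c hc := algebraMap k[X] (Rc c hc) X

theorem yv_apply (j l : Fin s.m) : yv c hc j l = if l = j then 1 else 0 := rfl

theorem basis_apply (j : Fin s.m) : basis c hc j = yv c hc j := by
  ext l : 1
  rw [yv_apply]
  show (Pi.basisFun k[X] (Fin s.m)) j l = _
  rw [Pi.basisFun_apply, Pi.single_apply]

theorem basis_repr (f : Rc c hc) (j : Fin s.m) : (basis c hc).repr f j = f j := rfl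

theorem yv_zero : yv c hc s.zero = 1 := rfl

theorem aeval_xv (p : k[X]) : aeval (xv c hc) p = algebraMap k[X] (Rc c hc) p := by
  unfold xv
  rw [Polynomial.aeval_algebraMap_apply, aeval_X_left_apply]

theorem aeval_xv_mul (p : k[X]) (f : Rc c hc) : aeval (xv c hc) p * f = p • f := by
  rw [aeval_xv, Algebra.smul_def]

theorem sum_aeval_mul_yv_apply (p : Fin s.m → k[X]) (l : Fin s.m) :
    (∑ j, aeval (xv c hc) (p j) * yv c hc j) l = p l := by
  rw [sum_apply, Finset.sum_eq_single l]
  · rw [aeval_xv_mul, smul_apply, yv_apply, if_pos rfl, mul_one]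
  · intro j _ hj
    rw [aeval_xv_mul, smul_apply, yv_apply, if_neg (Ne.symm hj), mul_zero]
  · intro h
    exact absurd (Finset.mem_univ l) h

theorem eq_sum_aeval_mul_yv (f : Rc c hc) : f = ∑ j, aeval (xv c hc) (f j) * yv c hc j := by
  ext l : 1
  rw [sum_aeval_mul_yv_apply]

theorem yv_mul_yv_apply (i j l : Fin s.m) : (yv c hc i * yv c hc j) l = c.poly i j l := by
  rw [mul_apply, Finset.sum_eq_single i]
  · rw [Finset.sum_eq_single j]
    · rw [yv_apply, yv_apply, if_pos rfl, if_pos rfl]
      ring
    · intro j' _ hj'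
      rw [yv_apply j j', if_neg hj']
      ring
    · intro h
      exact absurd (Finset.mem_univ j) h
  · intro i' _ hi'
    apply Finset.sum_eq_zero
    intro j' _
    rw [yv_apply i i', if_neg hi']
    ring
  · intro h
    exact absurd (Finset.mem_univ i) h

theorem mul_table (i j : Fin s.m) :
    yv c hc i * yv c hc j = ∑ l, aeval (xv c hc) (c.poly i j l) * yv c hc l := by
  ext l : 1
  rw [sum_aeval_mul_yv_apply, yv_mul_yv_apply]

instance instFreeRc : Module.Free k[X] (Rc c hc) := Module.Free.of_basis (basis c hc)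

instance instFiniteRc : Module.Finite k[X] (Rc c hc) := Module.Finite.of_basis (basis c hc)

instance instNontrivialRc : Nontrivial (Rc c hc) :=
  ⟨⟨0, 1, fun h => by
    have := congrFun h s.zero
    rw [zero_apply, one_apply, if_pos rfl] at this
    exact zero_ne_one this⟩⟩

end Fermat.Agent.S27.M4
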