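import Fermat.Agent.S27.M4.Points
import Fermat.Agent.S27.M4.Cotangent

/-!
# S27, block M4: `Valid.smooth` implies that `R_c` is a Dedekind domain
-/

set_option autoImplicit false
set_option linter.unusedSectionVars false

noncomputable section

namespace Fermat.Agent.S27.M4

open Polynomial

universe u

/-- Taylor expansion to first order in an arbitrary commutative algebra. -/
theorem smooth_taylor {k R : Type*} [Field k] [CommRing R] [Algebra k R] (P : Ideal R) (x : R)
    (ξ : k) (hξ : x - algebraMap k R ξ ∈ P) (p : k[X]) :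
    aeval x p - algebraMap k R (p.eval ξ)
      - algebraMap k R ((derivative p).eval ξ) * (x - algebraMap k R ξ) ∈ P ^ 2 := by
  obtain ⟨κ, hκ⟩ := Polynomial.binomExpansion (p.map (algebraMap k R)) (algebraMap k R ξ)
    (x - algebraMap k R ξ)
  rw [add_sub_cancel, derivative_map, eval_map_algebraMap, eval_map_algebraMap,
    eval_map_algebraMap, aeval_algebraMap_apply_eq_algebraMap_eval,
    aeval_algebraMap_apply_eq_algebraMap_eval] at hκ
  have : aeval x p - algebraMap k R (p.eval ξ)
      - algebraMap k R ((derivative p).eval ξ) * (x - algebraMap k R ξ)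
      = κ * (x - algebraMap k R ξ) ^ 2 := by
    rw [hκ]; ring
  rw [this]
  exact Ideal.mul_mem_left _ _ (Ideal.pow_mem_pow hξ 2)

/-- A linear form separating a vector from a subspace. -/
theorem smooth_exists_form {k V : Type*} [Field k] [AddCommGroup V] [Module k V]
    (Q : Submodule k V) (x : V) (hx : x ∉ Q) :
    ∃ f : V →ₗ[k] k, f x ≠ 0 ∧ ∀ q ∈ Q, f q = 0 := by
  obtain ⟨f, hf, hQ⟩ := Submodule.exists_dual_map_eq_bot_of_notMem hx inferInstance
  refine ⟨f, hf, fun q hq => ?_⟩
  have : f q ∈ Q.map f := Submodule.mem_map_of_mem hq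
  rw [hQ] at this
  exact (Submodule.mem_bot k).1 this

variable {s : Shape} {k : Type u} [Field k] [IsAlgClosed k] {c : Table s k} {hc : Valid s c}

theorem eval_derivative_poly (c : Table s k) (ξ : k) (i j l : Fin s.m) :
    (derivative (c.poly i j l)).eval ξ = c.dev ξ i j l := by
  unfold Table.poly Table.dev
  rw [derivative_sum, eval_finsetSum]
  refine Finset.sum_congr rfl fun t _ => ?_
  rw [derivative_C_mul_X_pow]
  simp only [eval_mul, eval_C, eval_pow, eval_X]
  ring

/-- Taylor expansion to first order: `p(x) - p(ξ) - p'(ξ) (x - ξ) ∈ P ^ 2` if `x - ξ ∈ P`. -/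
theorem aeval_sub_mem_sq (P : Ideal (Rc c hc)) (ξ : k)
    (hξ : xv c hc - algebraMap k (Rc c hc) ξ ∈ P) (p : k[X]) :
    aeval (xv c hc) p - algebraMap k (Rc c hc) (p.eval ξ)
      - algebraMap k (Rc c hc) ((derivative p).eval ξ) * (xv c hc - algebraMap k (Rc c hc) ξ)
        ∈ P ^ 2 :=
  smooth_taylor P (xv c hc) ξ hξ p

/-- the abstract computation behind `isTangent_of_linearMap`. -/
theorem smooth_tangent_aux {R : Type*} [CommRing R] [Algebra k R] (x : R) (y : Fin s.m → R)
    (hmul : ∀ i j, y i * y j = ∑ l, aeval x (c.poly i j l) * y l)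
    (ξ : k) (η : Fin s.m → k) (hpt : c.IsPoint ξ η) (P : Ideal R)
    (hx : x - algebraMap k R ξ ∈ P) (hy : ∀ j, y j - algebraMap k R (η j) ∈ P)
    (lam : R →ₗ[k] k) (hlam : ∀ f ∈ P ^ 2, lam f = 0) (i j : Fin s.m) :
    lam (y i - algebraMap k R (η i)) * η j + η i * lam (y j - algebraMap k R (η j))
      = ∑ l, (c.dev ξ i j l * lam (x - algebraMap k R ξ) * η l
          + c.ev ξ i j l * lam (y l - algebraMap k R (η l))) := by
  set gn : R := x - algebraMap k R ξ with hgn
  set g : Fin s.m → R := fun l => y l - algebraMap k R (η l) with hg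
  set r : Fin s.m → R := fun l => aeval x (c.poly i j l) - algebraMap k R (c.ev ξ i j l)
      - algebraMap k R (c.dev ξ i j l) * gn with hr
  have hrmem : ∀ l, r l ∈ P ^ 2 := by
    intro l
    have := smooth_taylor P x ξ hx (c.poly i j l)
    rw [eval_poly, eval_derivative_poly] at this
    exact this
  have hsum : ∑ l, aeval x (c.poly i j l) * y l
      = ∑ l, (r l * y l + algebraMap k R (c.dev ξ i j l) * (gn * g l))
        + ∑ l, algebraMap k R (c.ev ξ i j l) * algebraMap k R (η l)
        + ∑ l, (c.dev ξ i j l * η l) • gn + ∑ l, c.ev ξ i j l • g l := by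
    rw [← Finset.sum_add_distrib, ← Finset.sum_add_distrib, ← Finset.sum_add_distrib]
    refine Finset.sum_congr rfl fun l _ => ?_
    simp only [hr, hg, Algebra.smul_def, map_mul]
    ring
  have hconst : algebraMap k R (η i) * algebraMap k R (η j)
      = ∑ l, algebraMap k R (c.ev ξ i j l) * algebraMap k R (η l) := by
    rw [← map_mul, hpt.2 i j, map_sum]
    refine Finset.sum_congr rfl fun l _ => ?_
    rw [map_mul]
  have hE : η j • g i + η i • g j - ∑ l, (c.dev ξ i j l * η l) • gn - ∑ l, c.ev ξ i j l • g l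
      = ∑ l, (r l * y l + algebraMap k R (c.dev ξ i j l) * (gn * g l)) - g i * g j := by
    have h1 := hmul i j
    rw [hsum] at h1
    simp only [Algebra.smul_def (η j), Algebra.smul_def (η i)]
    have h2 : y i = g i + algebraMap k R (η i) := by simp [hg]
    have h3 : y j = g j + algebraMap k R (η j) := by simp [hg]
    rw [h2, h3] at h1
    linear_combination h1 - hconst
  have hmem : η j • g i + η i • g j - ∑ l, (c.dev ξ i j l * η l) • gn
      - ∑ l, c.ev ξ i j l • g l ∈ P ^ 2 := by
    rw [hE]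
    refine Ideal.sub_mem _ (Ideal.sum_mem _ fun l _ => Ideal.add_mem _ ?_ ?_) ?_
    · exact Ideal.mul_mem_right _ _ (hrmem l)
    · refine Ideal.mul_mem_left _ _ ?_
      rw [pow_two]
      exact Ideal.mul_mem_mul hx (hy l)
    · rw [pow_two]
      exact Ideal.mul_mem_mul (hy i) (hy j)
  have h0 := hlam _ hmem
  simp only [map_sub, map_add, map_sum, map_smul, smul_eq_mul] at h0
  have hsplit : ∑ l, (c.dev ξ i j l * lam gn * η l + c.ev ξ i j l * lam (g l))
      = ∑ l, c.dev ξ i j l * η l * lam gn + ∑ l, c.ev ξ i j l * lam (g l) := by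
    rw [← Finset.sum_add_distrib]
    refine Finset.sum_congr rfl fun l _ => ?_
    ring
  rw [hsplit]
  linear_combination h0

/-- A `k`-linear form on `R_c` vanishing on `P ^ 2` gives a tangent vector. -/
theorem isTangent_of_linearMap (ξ : k) (η : Fin s.m → k) (hpt : c.IsPoint ξ η)
    (lam : Rc c hc →ₗ[k] k)
    (hlam : ∀ f ∈ (Ideal.span (Set.range (gen c hc ξ η))) ^ 2, lam f = 0) :
    c.IsTangent ξ η (lam (gen c hc ξ η none)) (fun j => lam (gen c hc ξ η (some j))) := by
  refine ⟨?_, fun i j => ?_⟩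
  · show lam (yv c hc s.zero - algebraMap k (Rc c hc) (η s.zero)) = 0
    rw [yv_zero, hpt.1, map_one, sub_self, map_zero]
  · exact smooth_tangent_aux (xv c hc) (yv c hc) mul_table ξ η hpt
      (Ideal.span (Set.range (gen c hc ξ η)))
      (Ideal.subset_span ⟨none, rfl⟩) (fun l => Ideal.subset_span ⟨some l, rfl⟩) lam hlam i j

theorem exists_generator_mod_sq (P : Ideal (Rc c hc)) (hP : P.IsMaximal) :
    ∃ π ∈ P, P ≤ Ideal.span {π} ⊔ P ^ 2 := by
  obtain ⟨ξ, η, hpt, hPeq⟩ := exists_point P hP
  by_cases hle : P ≤ P ^ 2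
  · exact ⟨0, P.zero_mem, le_sup_of_le_right hle⟩
  obtain ⟨π, hπ, hπ2⟩ := SetLike.not_le_iff_exists.1 hle
  refine ⟨π, hπ, fun p hp => ?_⟩
  by_contra hcon
  set Q : Submodule k (Rc c hc) := (P ^ 2).restrictScalars k with hQ
  -- the two linear forms
  have hp' : p ∉ Q ⊔ Submodule.span k {π} := by
    intro hmem
    apply hcon
    obtain ⟨q, hq, z, hz, rfl⟩ := Submodule.mem_sup.1 hmem
    obtain ⟨a, rfl⟩ := Submodule.mem_span_singleton.1 hz
    refine Ideal.add_mem _ (Ideal.mem_sup_right hq) (Ideal.mem_sup_left ?_)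
    rw [Algebra.smul_def]
    exact Ideal.mul_mem_left _ _ (Ideal.mem_span_singleton_self π)
  obtain ⟨lam1, h1p, h1Q⟩ := smooth_exists_form _ p hp'
  obtain ⟨lam2, h2π, h2Q⟩ := smooth_exists_form Q π hπ2
  have h1sq : ∀ f ∈ P ^ 2, lam1 f = 0 := fun f hf => h1Q f (Submodule.mem_sup_left hf)
  have h1π : lam1 π = 0 :=
    h1Q π (Submodule.mem_sup_right (Submodule.mem_span_singleton_self π))
  have h2sq : ∀ f ∈ P ^ 2, lam2 f = 0 := fun f hf => h2Q f hf
  have t1 := isTangent_of_linearMap ξ η hpt lam1 (hPeq ▸ h1sq)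
  have t2 := isTangent_of_linearMap ξ η hpt lam2 (hPeq ▸ h2sq)
  obtain ⟨α, β, hαβ, hu, hw⟩ := hc.smooth ξ η hpt _ _ _ _ t1 t2
  have hgen : ∀ o, α * lam1 (gen c hc ξ η o) + β * lam2 (gen c hc ξ η o) = 0 := by
    intro o
    cases o with
    | none => exact hu
    | some j => exact hw j
  have hL : ∀ f ∈ P, α * lam1 f + β * lam2 f = 0 := by
    intro f hf
    obtain ⟨a, ha⟩ := exists_sub_sum_mem_sq P hP ξ η hPeq f hf
    have e1 := h1sq _ ha
    have e2 := h2sq _ ha
    rw [map_sub, sub_eq_zero] at e1 e2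
    rw [e1, e2]
    simp only [map_sum, map_smul, smul_eq_mul, Finset.mul_sum]
    rw [← Finset.sum_add_distrib]
    refine Finset.sum_eq_zero fun o _ => ?_
    linear_combination a o * hgen o
  have hβ : β = 0 := by
    have := hL π hπ
    rw [h1π, mul_zero, zero_add] at this
    exact (mul_eq_zero.1 this).resolve_right h2π
  have hα : α = 0 := by
    have := hL p hp
    rw [hβ, zero_mul, add_zero] at this
    exact (mul_eq_zero.1 this).resolve_right h1p
  rcases hαβ with h | h
  · exact h hα
  · exact h hβ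

instance instIsDedekindDomainRc : IsDedekindDomain (Rc c hc) :=
  isDedekindDomain_of_cotangent exists_generator_mod_sq

end Fermat.Agent.S27.M4
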