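import Fermat.Agent.S27.M4.Ring

/-!
# S27, block M4: the weight function on `R_c`

`wt f = max_j (m * natDegree (f j) + b j)` (over the `j` with `f j ≠ 0`), `wt 0 = 0`.
-/

set_option autoImplicit false
set_option linter.unusedSectionVars false

noncomputable section

namespace Fermat.Agent.S27.M4

open Polynomial

universe u

variable {s : Shape} {k : Type u} [Field k] {c : Table s k} {hc : Valid s c}

open Classical in
/-- The weight `ρ(f)` (`0` for `f = 0`). -/
def wt (f : Rc c hc) : ℕ :=
  Finset.univ.sup fun j => if f j = 0 then 0 else s.m * (f j).natDegree + s.b j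

theorem wt_le_iff (f : Rc c hc) (n : ℕ) :
    wt f ≤ n ↔ ∀ j, f j ≠ 0 → s.m * (f j).natDegree + s.b j ≤ n := by
  unfold wt
  rw [Finset.sup_le_iff]
  constructor
  · intro h j hj
    have := h j (Finset.mem_univ j)
    rwa [if_neg hj] at this
  · intro h j _
    split_ifs with hj
    · exact Nat.zero_le n
    · exact h j hj

theorem le_wt (f : Rc c hc) (j : Fin s.m) (hj : f j ≠ 0) :
    s.m * (f j).natDegree + s.b j ≤ wt f :=
  (wt_le_iff f (wt f)).mp le_rfl j hj

@[simp] theorem wt_zero : wt (0 : Rc c hc) = 0 :=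
  Nat.le_zero.mp ((wt_le_iff 0 0).mpr fun j hj => absurd (zero_apply j) hj)

/-- The maximum is attained. -/
theorem exists_wt_eq (f : Rc c hc) (hf : f ≠ 0) :
    ∃ j, f j ≠ 0 ∧ wt f = s.m * (f j).natDegree + s.b j := by
  classical
  have hne : (Finset.univ.filter fun j => f j ≠ 0).Nonempty := by
    by_contra h
    rw [Finset.not_nonempty_iff_eq_empty, Finset.filter_eq_empty_iff] at h
    apply hf
    ext j : 1
    have := h (Finset.mem_univ j)
    rw [zero_apply]
    exact not_not.mp this
  obtain ⟨j, hj, hmax⟩ := Finset.exists_max_image _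
    (fun j => s.m * (f j).natDegree + s.b j) hne
  rw [Finset.mem_filter] at hj
  refine ⟨j, hj.2, le_antisymm ?_ (le_wt f j hj.2)⟩
  rw [wt_le_iff]
  intro l hl
  exact hmax l (Finset.mem_filter.mpr ⟨Finset.mem_univ l, hl⟩)

theorem Weight_index_eq {j j' : Fin s.m} {d d' : ℕ} (h : s.m * d + s.b j = s.m * d' + s.b j') :
    j = j' := by
  have h1 := congrArg (· % s.m) h
  simp only [Nat.mul_add_mod, s.b_mod] at h1
  exact Fin.ext h1

/-- ... at a unique index, namely `wt f % m`. -/
theorem lt_wt_of_ne (f : Rc c hc) (j j' : Fin s.m) (hj : f j ≠ 0)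
    (h : wt f = s.m * (f j).natDegree + s.b j) (hj' : f j' ≠ 0) (hne : j' ≠ j) :
    s.m * (f j').natDegree + s.b j' < wt f := by
  refine lt_of_le_of_ne (le_wt f j' hj') ?_
  intro h'
  rw [h] at h'
  exact hne (Weight_index_eq h')

theorem wt_neg (f : Rc c hc) : wt (-f) = wt f := by
  have key : ∀ g : Rc c hc, wt (-g) ≤ wt g := by
    intro g
    rw [wt_le_iff]
    intro j hj
    rw [neg_apply] at hj ⊢
    rw [natDegree_neg]
    exact le_wt g j (neg_ne_zero.mp hj)
  refine le_antisymm (key f) ?_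
  have := key (-f)
  rwa [neg_neg] at this

theorem wt_add_le (f g : Rc c hc) : wt (f + g) ≤ max (wt f) (wt g) := by
  rw [wt_le_iff]
  intro j hj
  rw [add_apply] at hj ⊢
  by_cases hf : f j = 0
  · rw [hf, zero_add] at hj ⊢
    exact (le_wt g j hj).trans (le_max_right _ _)
  by_cases hg : g j = 0
  · rw [hg, add_zero] at hj ⊢
    exact (le_wt f j hj).trans (le_max_left _ _)
  have h1 := natDegree_add_le (f j) (g j)
  have h2 := le_wt f j hf
  have h3 := le_wt g j hg
  rcases le_max_iff.mp h1 with h | h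
  · refine le_trans ?_ (h2.trans (le_max_left _ _))
    gcongr
  · refine le_trans ?_ (h3.trans (le_max_right _ _))
    gcongr

theorem wt_sub_le (f g : Rc c hc) : wt (f - g) ≤ max (wt f) (wt g) := by
  rw [sub_eq_add_neg, ← wt_neg g]
  exact wt_add_le f (-g)

theorem wt_sum_le {ι : Type*} (t : Finset ι) (f : ι → Rc c hc) (n : ℕ) (h : ∀ i ∈ t, wt (f i) ≤ n) :
    wt (∑ i ∈ t, f i) ≤ n := by
  classical
  induction t using Finset.induction_on with
  | empty => simp
  | insert i t hi ih =>
    rw [Finset.sum_insert hi]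
    exact (wt_add_le _ _).trans (max_le (h i (Finset.mem_insert_self _ _))
      (ih fun j hj => h j (Finset.mem_insert_of_mem hj)))

variable [Infinite k]

theorem wt_smul (p : k[X]) (hp : p ≠ 0) (f : Rc c hc) (hf : f ≠ 0) :
    wt (p • f) = s.m * p.natDegree + wt f := by
  apply le_antisymm
  · rw [wt_le_iff]
    intro j hj
    rw [smul_apply] at hj ⊢
    have hfj : f j ≠ 0 := right_ne_zero_of_mul hj
    rw [natDegree_mul hp hfj, mul_add, add_assoc]
    exact Nat.add_le_add_left (le_wt f j hfj) _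
  · obtain ⟨j, hj, hw⟩ := exists_wt_eq f hf
    have h1 : (p • f) j ≠ 0 := by
      rw [smul_apply]
      exact mul_ne_zero hp hj
    have h2 := le_wt (p • f) j h1
    rw [smul_apply, natDegree_mul hp hj, mul_add, add_assoc, ← hw] at h2
    exact h2

theorem wt_ksmul (a : k) (ha : a ≠ 0) (f : Rc c hc) : wt (a • f) = wt f := by
  rcases eq_or_ne f 0 with rfl | hf
  · simp
  · rw [smul_def', wt_smul _ (C_ne_zero.mpr ha) f hf, natDegree_C, mul_zero, zero_add]

theorem Weight_wt_one : wt (1 : Rc c hc) = 0 := by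
  apply Nat.le_zero.mp
  rw [wt_le_iff]
  intro j hj
  rw [one_apply] at hj ⊢
  by_cases h : j = s.zero
  · rw [if_pos h, natDegree_one, mul_zero, zero_add, h, s.b_zero s.zero rfl]
  · rw [if_neg h] at hj
    exact absurd rfl hj

theorem wt_algebraMap (p : k[X]) : wt (algebraMap k[X] (Rc c hc) p) = s.m * p.natDegree := by
  rcases eq_or_ne p 0 with rfl | hp
  · simp
  · rw [Algebra.algebraMap_eq_smul_one, wt_smul p hp 1 one_ne_zero, Weight_wt_one, add_zero]

theorem wt_algebraMap_k (a : k) : wt (algebraMap k (Rc c hc) a) = 0 := by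
  rw [IsScalarTower.algebraMap_apply k k[X] (Rc c hc), wt_algebraMap, Polynomial.algebraMap_eq,
    natDegree_C, mul_zero]

theorem wt_xv : wt (xv c hc) = s.m := by
  unfold xv
  rw [wt_algebraMap, natDegree_X, mul_one]

theorem wt_yv (j : Fin s.m) : wt (yv c hc j) = s.b j := by
  apply le_antisymm
  · rw [wt_le_iff]
    intro l hl
    rw [yv_apply] at hl ⊢
    by_cases h : l = j
    · rw [if_pos h, natDegree_one, mul_zero, zero_add, h]
    · rw [if_neg h] at hl
      exact absurd rfl hl
  · have h1 : yv c hc j j ≠ 0 := by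
      rw [yv_apply, if_pos rfl]
      exact one_ne_zero
    have h2 := le_wt (yv c hc j) j h1
    rwa [yv_apply, if_pos rfl, natDegree_one, mul_zero, zero_add] at h2

theorem yv_ne_zero (j : Fin s.m) : yv c hc j ≠ 0 := by
  intro h
  have := congrFun h j
  rw [yv_apply, if_pos rfl, zero_apply] at this
  exact one_ne_zero this

/-- weight of a monomial -/
theorem wt_monomial (t : ℕ) (j : Fin s.m) : wt ((X ^ t : k[X]) • yv c hc j) = s.m * t + s.b j := by
  rw [wt_smul _ (pow_ne_zero t X_ne_zero) _ (yv_ne_zero j), natDegree_X_pow, wt_yv]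

/-- Every large integer is a weight. -/
theorem exists_monomial_wt_eq (n : ℕ) (hn : ∑ j, s.b j ≤ n) :
    ∃ (t : ℕ) (j : Fin s.m), s.m * t + s.b j = n := by
  set j : Fin s.m := ⟨n % s.m, Nat.mod_lt _ s.m_pos⟩ with hj
  have h1 : s.b j ≤ n :=
    (Finset.single_le_sum (f := fun j => s.b j) (fun _ _ => Nat.zero_le _)
      (Finset.mem_univ j)).trans hn
  have h2 : s.b j % s.m = n % s.m := s.b_mod j
  have h3 : s.m ∣ n - s.b j := (Nat.modEq_iff_dvd' h1).mp h2
  obtain ⟨t, ht⟩ := h3
  exact ⟨t, j, by omega⟩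

theorem Weight_aux_sub {m b W : ℕ} {P R : k[X]} (hP : P = 0 ∨ m * P.natDegree + b < W)
    (hR : R = 0 ∨ m * R.natDegree + b < W) : P - R = 0 ∨ m * (P - R).natDegree + b < W := by
  rcases hP with rfl | hP
  · rw [zero_sub, neg_eq_zero, natDegree_neg]
    exact hR
  rcases hR with rfl | hR
  · rw [sub_zero]
    exact Or.inr hP
  right
  rcases le_max_iff.mp (natDegree_sub_le P R) with h | h
  · refine lt_of_le_of_lt ?_ hP
    gcongr
  · refine lt_of_le_of_lt ?_ hR
    gcongr

/-- **Leading term lemma.** -/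
theorem exists_sub_smul_wt_lt (f g : Rc c hc) (hf : f ≠ 0) (hg : g ≠ 0) (h : wt f = wt g) :
    ∃ a : k, a ≠ 0 ∧ (f = a • g ∨ wt (f - a • g) < wt f) := by
  obtain ⟨j, hj, hwf⟩ := exists_wt_eq f hf
  obtain ⟨j', hj', hwg⟩ := exists_wt_eq g hg
  have hjj : j = j' := Weight_index_eq (hwf.symm.trans (h.trans hwg))
  subst hjj
  have hd : (f j).natDegree = (g j).natDegree := by
    have h1 : s.m * (f j).natDegree = s.m * (g j).natDegree := by omega
    exact Nat.eq_of_mul_eq_mul_left s.m_pos h1
  have hlf : (f j).leadingCoeff ≠ 0 := leadingCoeff_ne_zero.mpr hj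
  have hlg : (g j).leadingCoeff ≠ 0 := leadingCoeff_ne_zero.mpr hj'
  set a : k := (f j).leadingCoeff / (g j).leadingCoeff with ha
  have ha0 : a ≠ 0 := div_ne_zero hlf hlg
  refine ⟨a, ha0, ?_⟩
  by_cases hfg : f = a • g
  · exact Or.inl hfg
  right
  have hh : f - a • g ≠ 0 := sub_ne_zero.mpr hfg
  obtain ⟨l, hl, hwl⟩ := exists_wt_eq _ hh
  rw [hwl]
  rw [sub_apply, ksmul_apply] at hl ⊢
  by_cases hlj : l = j
  · subst hlj
    have hCa : C a * g l ≠ 0 := mul_ne_zero (C_ne_zero.mpr ha0) hj'
    have hdeg : (f l).degree = (C a * g l).degree := by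
      rw [degree_C_mul ha0, degree_eq_natDegree hj, degree_eq_natDegree hj', hd]
    have hlc : (f l).leadingCoeff = (C a * g l).leadingCoeff := by
      rw [leadingCoeff_mul, leadingCoeff_C, ha, div_mul_cancel₀ _ hlg]
    have h1 := degree_sub_lt_left hdeg hj hlc
    have h2 := natDegree_lt_natDegree hl h1
    rw [hwf]
    have := Nat.mul_lt_mul_of_pos_left h2 s.m_pos
    omega
  · have hP : f l = 0 ∨ s.m * (f l).natDegree + s.b l < wt f := by
      by_cases h0 : f l = 0
      · exact Or.inl h0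
      · exact Or.inr (lt_wt_of_ne f j l hj hwf h0 hlj)
    have hR : C a * g l = 0 ∨ s.m * (C a * g l).natDegree + s.b l < wt f := by
      by_cases h0 : g l = 0
      · left; rw [h0, mul_zero]
      · right
        rw [natDegree_C_mul ha0, h]
        exact lt_wt_of_ne g j l hj' hwg h0 hlj
    exact (Weight_aux_sub hP hR).resolve_left hl

/-- weight `0` means constant. -/
theorem exists_eq_algebraMap_of_wt_eq_zero (f : Rc c hc) (h : wt f = 0) :
    ∃ a : k, f = algebraMap k (Rc c hc) a := by
  refine ⟨(f s.zero).coeff 0, ?_⟩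
  ext l : 1
  rw [IsScalarTower.algebraMap_apply k k[X] (Rc c hc), algebraMap_apply, Polynomial.algebraMap_eq]
  by_cases hl : l = s.zero
  · rw [if_pos hl, hl]
    by_cases h0 : f s.zero = 0
    · rw [h0]; simp
    · have h1 := le_wt f s.zero h0
      rw [h] at h1
      have h2 : s.m * (f s.zero).natDegree = 0 := by omega
      have h3 : (f s.zero).natDegree = 0 := by
        rcases Nat.mul_eq_zero.mp h2 with h4 | h4
        · exact absurd h4 s.m_pos.ne'
        · exact h4
      exact eq_C_of_natDegree_eq_zero h3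
  · rw [if_neg hl]
    by_contra h0
    have h1 := le_wt f l h0
    rw [h] at h1
    have h2 : s.b l = 0 := by omega
    have h3 := s.b_mod l
    rw [h2, Nat.zero_mod] at h3
    exact hl (Fin.ext h3.symm)

end Fermat.Agent.S27.M4
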