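import Fermat.Agent.S27.M4.Weight

/-!
# S27, block M4: multiplicativity of the weight function; `R_c` is a domain
-/

set_option autoImplicit false
set_option linter.unusedSectionVars false

noncomputable section

namespace Fermat.Agent.S27.M4

open Polynomial

universe u

variable {s : Shape} {k : Type u} [Field k] [Infinite k] {c : Table s k} {hc : Valid s c}

/-- degree bound for the entries of the table. -/
theorem WeightMul_natDegree_poly (hc : Valid s c) (i j l : Fin s.m) (h : c.poly i j l ≠ 0) :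
    s.m * (c.poly i j l).natDegree + s.b l ≤ s.b i + s.b j := by
  by_contra hlt
  rw [not_le] at hlt
  have h1 : (c.poly i j l).coeff (c.poly i j l).natDegree ≠ 0 := by
    rw [coeff_natDegree]
    exact leadingCoeff_ne_zero.2 h
  by_cases hT : (c.poly i j l).natDegree < s.T
  · have h2 := coeff_poly c i j l ⟨_, hT⟩
    simp only at h2
    rw [h2] at h1
    exact h1 (hc.wt i j l ⟨_, hT⟩ hlt)
  · exact h1 (coeff_poly_of_le c i j l _ (not_lt.1 hT))

/-- weight bound for one term of the product. -/
theorem WeightMul_term (f g : Rc c hc) (i j l : Fin s.m)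
    (h : f i * g j * c.poly i j l ≠ 0) :
    s.m * (f i * g j * c.poly i j l).natDegree + s.b l
      = (s.m * (f i).natDegree + s.b i) + (s.m * (g j).natDegree + s.b j)
        - (s.b i + s.b j - (s.m * (c.poly i j l).natDegree + s.b l)) := by
  have h1 : f i ≠ 0 := fun h0 => h (by rw [h0]; ring)
  have h2 : g j ≠ 0 := fun h0 => h (by rw [h0]; ring)
  have h3 : c.poly i j l ≠ 0 := fun h0 => h (by rw [h0]; ring)
  rw [natDegree_mul (mul_ne_zero h1 h2) h3, natDegree_mul h1 h2]
  have h4 := WeightMul_natDegree_poly hc i j l h3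
  have e1 : s.m * ((f i).natDegree + (g j).natDegree + (c.poly i j l).natDegree)
      = s.m * (f i).natDegree + s.m * (g j).natDegree + s.m * (c.poly i j l).natDegree := by ring
  omega

theorem WeightMul_term_le (f g : Rc c hc) (i j l : Fin s.m)
    (h : f i * g j * c.poly i j l ≠ 0) :
    s.m * (f i * g j * c.poly i j l).natDegree + s.b l
      ≤ (s.m * (f i).natDegree + s.b i) + (s.m * (g j).natDegree + s.b j) := by
  rw [WeightMul_term f g i j l h]
  exact Nat.sub_le _ _

/-- closure of a weight bound under finite sums of polynomials. -/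
theorem WeightMul_sum_le {ι : Type*} (t : Finset ι) (q : ι → k[X]) (a b W : ℕ)
    (h : ∀ i ∈ t, q i ≠ 0 → a * (q i).natDegree + b ≤ W) (h0 : ∑ i ∈ t, q i ≠ 0) :
    a * (∑ i ∈ t, q i).natDegree + b ≤ W := by
  classical
  have key : ∑ i ∈ t, q i = 0 ∨ a * (∑ i ∈ t, q i).natDegree + b ≤ W := by
    refine Finset.sum_induction q (fun p => p = 0 ∨ a * p.natDegree + b ≤ W) ?_ (Or.inl rfl) ?_
    · intro p p' hp hp'
      by_cases hpp : p + p' = 0
      · exact Or.inl hpp
      right
      rcases hp with rfl | hp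
      · rcases hp' with rfl | hp'
        · simp at hpp
        · simpa using hp'
      · rcases hp' with rfl | hp'
        · simpa using hp
        · have := natDegree_add_le p p'
          rcases le_max_iff.1 this with h1 | h1
          · exact (Nat.add_le_add_right (Nat.mul_le_mul_left a h1) b).trans hp
          · exact (Nat.add_le_add_right (Nat.mul_le_mul_left a h1) b).trans hp'
    · intro i hi
      by_cases hq : q i = 0
      · exact Or.inl hq
      · exact Or.inr (h i hi hq)
  exact key.resolve_left h0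

/-- **Upper bound** `ρ(fg) ≤ ρ(f) + ρ(g)` (uses `Valid.wt`). -/
theorem wt_mul_le (f g : Rc c hc) : wt (f * g) ≤ wt f + wt g := by
  rw [wt_le_iff]
  intro l hl
  rw [mul_apply] at hl ⊢
  apply WeightMul_sum_le _ _ _ _ _ _ hl
  intro i _ hi
  apply WeightMul_sum_le _ _ _ _ _ _ hi
  intro j _ hj
  have h1 : f i ≠ 0 := fun h0 => hj (by rw [h0]; ring)
  have h2 : g j ≠ 0 := fun h0 => hj (by rw [h0]; ring)
  exact (WeightMul_term_le f g i j l hj).trans (Nat.add_le_add (le_wt f i h1) (le_wt g j h2))

/-- **Multiplicativity** (uses `Valid.wt` and `Valid.lead`). -/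
theorem wt_mul (f g : Rc c hc) (hf : f ≠ 0) (hg : g ≠ 0) : f * g ≠ 0 ∧ wt (f * g) = wt f + wt g := by
  obtain ⟨i0, hi0, hwf⟩ := exists_wt_eq f hf
  obtain ⟨j0, hj0, hwg⟩ := exists_wt_eq g hg
  set l0 := s.add i0 j0 with hl0
  have hm := s.m_pos
  -- the exponent `t0`
  have hb : s.b l0 ≤ s.b i0 + s.b j0 := s.b_add i0 j0 l0 rfl
  have hmod : (s.b i0 + s.b j0) % s.m = s.b l0 % s.m := by
    rw [s.b_mod l0, Nat.add_mod, s.b_mod i0, s.b_mod j0]
    rfl
  obtain ⟨t0, ht0⟩ : ∃ t0, s.m * t0 + s.b l0 = s.b i0 + s.b j0 := by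
    have h1 : (s.b l0) ≡ (s.b i0 + s.b j0) [MOD s.m] := hmod.symm
    obtain ⟨t0, ht0⟩ := (Nat.modEq_iff_dvd' hb).1 h1
    exact ⟨t0, by omega⟩
  have hbi : s.b i0 ≤ ∑ j, s.b j := Finset.single_le_sum (fun _ _ => Nat.zero_le _) (Finset.mem_univ i0)
  have hbj : s.b j0 ≤ ∑ j, s.b j := Finset.single_le_sum (fun _ _ => Nat.zero_le _) (Finset.mem_univ j0)
  have ht0T : t0 < s.T := by
    unfold Shape.T
    have : t0 ≤ s.m * t0 := Nat.le_mul_of_pos_left t0 hm
    omega
  have hlead : c i0 j0 l0 ⟨t0, ht0T⟩ ≠ 0 := hc.lead i0 j0 ⟨t0, ht0T⟩ ht0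
  have hcoeffa : (c.poly i0 j0 l0).coeff t0 = c i0 j0 l0 ⟨t0, ht0T⟩ := coeff_poly c i0 j0 l0 ⟨t0, ht0T⟩
  have ha0 : c.poly i0 j0 l0 ≠ 0 := by
    intro h
    rw [h, coeff_zero] at hcoeffa
    exact hlead hcoeffa.symm
  have hadeg : (c.poly i0 j0 l0).natDegree ≤ t0 := by
    have := WeightMul_natDegree_poly hc i0 j0 l0 ha0
    have h2 : s.m * (c.poly i0 j0 l0).natDegree ≤ s.m * t0 := by omega
    exact Nat.le_of_mul_le_mul_left h2 hm
  -- the coefficient of degree `d + e + t0` of the coordinate `l0`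
  have hcoeff : ((f * g) l0).coeff ((f i0).natDegree + (g j0).natDegree + t0)
      = (f i0).coeff (f i0).natDegree * (g j0).coeff (g j0).natDegree * c i0 j0 l0 ⟨t0, ht0T⟩ := by
    rw [mul_apply, finsetSum_coeff, Finset.sum_eq_single i0]
    · rw [finsetSum_coeff, Finset.sum_eq_single j0]
      · rw [coeff_mul_add_eq_of_natDegree_le natDegree_mul_le hadeg,
          coeff_mul_add_eq_of_natDegree_le le_rfl le_rfl, hcoeffa]
      · intro j _ hj
        by_cases hz : f i0 * g j * c.poly i0 j l0 = 0
        · rw [hz, coeff_zero]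
        apply coeff_eq_zero_of_natDegree_lt
        have h2 : g j ≠ 0 := fun h0 => hz (by rw [h0]; ring)
        have h3 := WeightMul_term_le f g i0 j l0 hz
        have h4 := lt_wt_of_ne g j0 j hj0 hwg h2 hj
        have h5 : s.m * (f i0 * g j * c.poly i0 j l0).natDegree < s.m * ((f i0).natDegree + (g j0).natDegree + t0) := by
          have e1 : s.m * ((f i0).natDegree + (g j0).natDegree + t0) = s.m * (f i0).natDegree + s.m * (g j0).natDegree + s.m * t0 := by ring
          omega
        exact Nat.lt_of_mul_lt_mul_left h5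
      · intro h
        exact absurd (Finset.mem_univ j0) h
    · intro i _ hi
      rw [finsetSum_coeff]
      apply Finset.sum_eq_zero
      intro j _
      by_cases hz : f i * g j * c.poly i j l0 = 0
      · rw [hz, coeff_zero]
      apply coeff_eq_zero_of_natDegree_lt
      have h1 : f i ≠ 0 := fun h0 => hz (by rw [h0]; ring)
      have h2 : g j ≠ 0 := fun h0 => hz (by rw [h0]; ring)
      have h3 := WeightMul_term_le f g i j l0 hz
      have h4 := lt_wt_of_ne f i0 i hi0 hwf h1 hi
      have h4' := le_wt g j h2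
      have h5 : s.m * (f i * g j * c.poly i j l0).natDegree < s.m * ((f i0).natDegree + (g j0).natDegree + t0) := by
        have e1 : s.m * ((f i0).natDegree + (g j0).natDegree + t0) = s.m * (f i0).natDegree + s.m * (g j0).natDegree + s.m * t0 := by ring
        omega
      exact Nat.lt_of_mul_lt_mul_left h5
    · intro h
      exact absurd (Finset.mem_univ i0) h
  have hne : ((f * g) l0).coeff ((f i0).natDegree + (g j0).natDegree + t0) ≠ 0 := by
    rw [hcoeff]
    refine mul_ne_zero (mul_ne_zero ?_ ?_) hlead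
    · rw [coeff_natDegree]
      exact leadingCoeff_ne_zero.2 hi0
    · rw [coeff_natDegree]
      exact leadingCoeff_ne_zero.2 hj0
  have hl0ne : (f * g) l0 ≠ 0 := by
    intro h
    rw [h, coeff_zero] at hne
    exact hne rfl
  refine ⟨fun h => hl0ne (by rw [h, zero_apply]), le_antisymm (wt_mul_le f g) ?_⟩
  have h1 := le_wt (f * g) l0 hl0ne
  have h2 : (f i0).natDegree + (g j0).natDegree + t0 ≤ ((f * g) l0).natDegree := le_natDegree_of_ne_zero hne
  have h3 : s.m * ((f i0).natDegree + (g j0).natDegree + t0) ≤ s.m * ((f * g) l0).natDegree := Nat.mul_le_mul_left _ h2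
  have e1 : s.m * ((f i0).natDegree + (g j0).natDegree + t0) = s.m * (f i0).natDegree + s.m * (g j0).natDegree + s.m * t0 := by ring
  omega

instance instIsDomainRc : IsDomain (Rc c hc) := by
  have : NoZeroDivisors (Rc c hc) :=
    ⟨fun {a b} hab => by
      by_contra h
      rw [not_or] at h
      exact (wt_mul a b h.1 h.2).1 hab⟩
  exact NoZeroDivisors.to_isDomain _

theorem wt_pow (f : Rc c hc) (hf : f ≠ 0) (n : ℕ) : wt (f ^ n) = n * wt f := by
  induction n with
  | zero =>
    rw [pow_zero, Nat.zero_mul]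
    have : (1 : Rc c hc) = algebraMap k (Rc c hc) 1 := (map_one _).symm
    rw [this, wt_algebraMap_k]
  | succ n ih =>
    rw [pow_succ, (wt_mul _ _ (pow_ne_zero n hf) hf).2, ih]
    ring

end Fermat.Agent.S27.M4
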